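import Fermat.Agent.Carayol.Datum
import Mathlib.RingTheory.DedekindDomain.IntegralClosure
import Mathlib.RingTheory.DiscreteValuationRing.Basic
import Mathlib.RingTheory.IntegralClosure.IntegrallyClosed
import Mathlib.RingTheory.Polynomial.UniqueFactorization
import Mathlib.RingTheory.Henselian
import Mathlib.RingTheory.Localization.Integral
import Mathlib.FieldTheory.IsAlgClosed.Basic
import Mathlib.FieldTheory.Perfect

/-!
# The integral model over an unramified base

`UnramBase K q` is a strictly henselian discrete valuation ring in `K` with uniformiser `q`.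
`modelRing` is the integral closure of `W[j]` in the field of a `TateLevel`.
-/

set_option autoImplicit false

namespace Fermat.Agent.Carayol

open WeierstrassCurve IsLocalRing Polynomial

/-- A strictly henselian discrete valuation ring in `K` with uniformiser `q`. -/
structure UnramBase (K : Type*) [Field K] (q : ℕ) where
  /-- The valuation ring. -/
  W : Subring K
  [isLocal : IsLocalRing W]
  dvr : IsDiscreteValuationRing W
  frac : IsFractionRing W K
  max_eq : maximalIdeal W = Ideal.span {(q : W)}
  residue : IsAlgClosed (ResidueField W)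
  hens : HenselianLocalRing W
  charZero : CharZero K

attribute [instance] UnramBase.isLocal UnramBase.dvr UnramBase.frac

variable {K Ω : Type*} [Field K] [Field Ω] [Algebra K Ω] [DecidableEq Ω]

namespace TateLevel

variable (L : TateLevel K Ω) (U : UnramBase K L.frame.q)

/-- The image of the base ring. -/
def W0 : Subring Ω := U.W.map (algebraMap K Ω)

/-- The ring `W[j]`. -/
def lineRing : Subring Ω := Subring.closure ((L.W0 U : Set Ω) ∪ {L.j})

/-- The integral closure of `W[j]`. -/
def modelRing : Subring Ω := (integralClosure (L.lineRing U) Ω).toSubring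

lemma W0_le_lineRing : L.W0 U ≤ L.lineRing U := fun _ h => Subring.subset_closure (Or.inl h)

lemma j_mem_lineRing : L.j ∈ L.lineRing U := Subring.subset_closure (Or.inr rfl)

lemma mem_modelRing {z : Ω} : z ∈ L.modelRing U ↔ IsIntegral (L.lineRing U) z := Iff.rfl

lemma lineRing_le : L.lineRing U ≤ L.modelRing U := fun z hz =>
  (L.mem_modelRing U).2 (isIntegral_algebraMap (R := L.lineRing U) (x := ⟨z, hz⟩))

lemma W0_le : L.W0 U ≤ L.modelRing U := (L.W0_le_lineRing U).trans (L.lineRing_le U)

lemma mem_W0 (w : U.W) : algebraMap K Ω w ∈ L.W0 U := ⟨_, w.2, rfl⟩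

/-- Evaluation of polynomials at `j`. -/
noncomputable def evalJ : U.W[X] →+* Ω :=
  eval₂RingHom ((algebraMap K Ω).comp U.W.subtype) L.j

lemma evalJ_apply (p : U.W[X]) : L.evalJ U p = aeval L.j (p.map U.W.subtype) := by
  rw [evalJ, coe_eval₂RingHom, aeval_def, eval₂_map]

lemma evalJ_injective : Function.Injective (L.evalJ U) := by
  intro p p' h
  rw [evalJ_apply, evalJ_apply] at h
  exact map_injective U.W.subtype Subtype.val_injective
    ((transcendental_iff_injective.1 L.j_transcendental) h)

lemma range_evalJ : (L.evalJ U).range = L.lineRing U := by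
  refine le_antisymm ?_ (Subring.closure_le.2 ?_)
  · rintro _ ⟨p, rfl⟩
    induction p using Polynomial.induction_on' with
    | add p p' hp hp' => rw [map_add]; exact add_mem hp hp'
    | monomial n a =>
      rw [evalJ, coe_eval₂RingHom, eval₂_monomial]
      exact mul_mem (L.W0_le_lineRing U (L.mem_W0 U a)) (pow_mem (L.j_mem_lineRing U) n)
  · rintro z (⟨w, hw, rfl⟩ | rfl)
    · exact ⟨C ⟨w, hw⟩, by simp [evalJ]⟩
    · exact ⟨X, by simp [evalJ]⟩

/-- `W[j]` is a polynomial ring. -/
noncomputable def polyEquiv : U.W[X] ≃+* L.lineRing U :=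
  (RingEquiv.ofBijective (L.evalJ U).rangeRestrict
    ⟨fun _ _ h => L.evalJ_injective U (congrArg Subtype.val h),
      (L.evalJ U).rangeRestrict_surjective⟩).trans (RingEquiv.subringCongr (L.range_evalJ U))

lemma coe_polyEquiv (p : U.W[X]) : ((L.polyEquiv U p : L.lineRing U) : Ω) = L.evalJ U p := rfl

instance isNoetherianRing_lineRing : IsNoetherianRing (L.lineRing U) :=
  isNoetherianRing_of_ringEquiv _ (L.polyEquiv U)

instance isIntegrallyClosed_lineRing : IsIntegrallyClosed (L.lineRing U) :=
  haveI := (L.polyEquiv U).toMulEquiv.uniqueFactorizationMonoid inferInstance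
  inferInstance

/-- The field `K(j)`. -/
abbrev lineField : IntermediateField K Ω := IntermediateField.adjoin K ({L.j} : Set Ω)

lemma lineRing_mem_lineField {z : Ω} (hz : z ∈ L.lineRing U) : z ∈ L.lineField := by
  refine (Subring.closure_le.2 ?_ : L.lineRing U ≤ L.lineField.toSubfield.toSubring) hz
  rintro z (⟨w, -, rfl⟩ | rfl)
  · exact L.lineField.algebraMap_mem w
  · exact IntermediateField.subset_adjoin K _ rfl

noncomputable instance algebraLineField : Algebra (L.lineRing U) L.lineField :=
  ((L.lineRing U).subtype.codRestrict L.lineField fun z => L.lineRing_mem_lineField U z.2).toAlgebra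

instance : IsScalarTower (L.lineRing U) L.lineField Ω :=
  IsScalarTower.of_algebraMap_eq fun _ => rfl

/-- Denominators of a polynomial over `K` are powers of `q`. -/
lemma exists_scale (p : K[X]) : ∃ (r : U.W[X]) (a : U.W), a ≠ 0 ∧ r.map U.W.subtype
    = C (a : K) * p := by
  obtain ⟨a, ha, e⟩ := IsLocalization.integerNormalization_spec (nonZeroDivisors U.W) p
  exact ⟨_, a, nonZeroDivisors.ne_zero ha, e.trans (Polynomial.ext fun _ => by
    rw [coeff_smul, coeff_C_mul]; rfl)⟩

instance isFractionRing_lineRing : IsFractionRing (L.lineRing U) L.lineField := by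
  have : FaithfulSMul (L.lineRing U) L.lineField :=
    (faithfulSMul_iff_algebraMap_injective _ _).2 fun x y h =>
      Subtype.ext (congrArg (fun z : L.lineField => (z : Ω)) h)
  refine IsFractionRing.of_field _ _ fun z => ?_
  obtain ⟨r, s, e⟩ := IntermediateField.mem_adjoin_simple_iff K (x := (z : Ω)) |>.1 z.2
  obtain ⟨r', a, ha, er⟩ := exists_scale L U r
  obtain ⟨s', a', ha', es⟩ := exists_scale L U s
  refine ⟨L.polyEquiv U (C a' * r'), L.polyEquiv U (C a * s'), ?_⟩
  apply Subtype.ext
  show (z : Ω) = L.evalJ U (C a' * r') / L.evalJ U (C a * s')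
  rw [evalJ_apply, evalJ_apply, Polynomial.map_mul, Polynomial.map_mul, er, es, map_C, map_C,
    e]
  simp only [map_mul, aeval_C]
  have h1 : algebraMap K Ω (U.W.subtype a) ≠ 0 := by
    rw [_root_.map_ne_zero]; exact fun h => ha (Subtype.ext h)
  have h2 : algebraMap K Ω (U.W.subtype a') ≠ 0 := by
    rw [_root_.map_ne_zero]; exact fun h => ha' (Subtype.ext h)
  simp only [Subring.coe_subtype] at h1 h2 ⊢
  field_simp

include U in
lemma separable : Algebra.IsSeparable L.lineField Ω := by
  have := U.charZero
  have := L.finite
  have : CharZero L.lineField :=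
    charZero_of_injective_algebraMap (algebraMap K L.lineField).injective
  infer_instance

instance : IsFractionRing (L.modelRing U) Ω := by
  have := L.finite
  exact integralClosure.isFractionRing_of_finite_extension (A := L.lineRing U) L.lineField Ω

instance isNoetherianRing_modelRing : IsNoetherianRing (L.modelRing U) := by
  have := L.finite
  have := L.separable U
  exact IsIntegralClosure.isNoetherianRing (L.lineRing U) L.lineField Ω
    (integralClosure (L.lineRing U) Ω)

instance isIntegrallyClosed_modelRing : IsIntegrallyClosed (L.modelRing U) := by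
  have := L.finite
  exact integralClosure.isIntegrallyClosedOfFiniteExtension (R := L.lineRing U) L.lineField

lemma mem_modelRing_of_isIntegral {z : Ω} (hz : IsIntegral (L.modelRing U) z) :
    z ∈ L.modelRing U := by
  obtain ⟨w, rfl⟩ := IsIntegrallyClosed.isIntegral_iff.1 hz
  exact w.2

noncomputable instance algebraLineModel : Algebra (L.lineRing U) (L.modelRing U) :=
  (Subring.inclusion (L.lineRing_le U)).toAlgebra

instance : IsScalarTower (L.lineRing U) (L.modelRing U) Ω :=
  IsScalarTower.of_algebraMap_eq fun _ => rfl

instance : Algebra.IsIntegral (L.lineRing U) (L.modelRing U) :=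
  ⟨fun z => (isIntegral_algHom_iff
    (IsScalarTower.toAlgHom (L.lineRing U) (L.modelRing U) Ω) Subtype.val_injective).1 z.2⟩

end TateLevel

end Fermat.Agent.Carayol
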