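import Fermat.Agent.Carayol.Setting

/-!
# Elements congruent to constants
-/

set_option autoImplicit false

namespace Fermat.Agent.Carayol

open IsLocalRing Polynomial

variable {Ω : Type*} [Field Ω] {B : Subring Ω} (W0 : Subring Ω) (J : Ideal B)

/-- `x ∈ B` is congruent to an element of `W0` modulo `J`. -/
def Cst (x : Ω) : Prop :=
  ∃ hx : x ∈ B, ∃ w ∈ W0, ∃ hw : w ∈ B, (⟨x, hx⟩ : B) - ⟨w, hw⟩ ∈ J

variable {W0 J}

lemma Cst.mem {x : Ω} (h : Cst W0 J x) : x ∈ B := h.1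

lemma cst_of_mem {w : Ω} (hw : w ∈ W0) (hB : w ∈ B) : Cst W0 J w :=
  ⟨hB, w, hw, hB, by rw [sub_self]; exact J.zero_mem⟩

lemma Cst.add {x y : Ω} (hx : Cst W0 J x) (hy : Cst W0 J y) : Cst W0 J (x + y) := by
  obtain ⟨hxB, w, hw, hwB, e⟩ := hx
  obtain ⟨hyB, v, hv, hvB, e'⟩ := hy
  refine ⟨add_mem hxB hyB, _, add_mem hw hv, add_mem hwB hvB, ?_⟩
  convert J.add_mem e e' using 1
  exact Subtype.ext (by push_cast; ring)

lemma Cst.neg {x : Ω} (hx : Cst W0 J x) : Cst W0 J (-x) := by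
  obtain ⟨hxB, w, hw, hwB, e⟩ := hx
  refine ⟨neg_mem hxB, _, neg_mem hw, neg_mem hwB, ?_⟩
  convert J.neg_mem e using 1
  exact Subtype.ext (by push_cast; ring)

lemma Cst.sub {x y : Ω} (hx : Cst W0 J x) (hy : Cst W0 J y) : Cst W0 J (x - y) :=
  sub_eq_add_neg x y ▸ hx.add hy.neg

lemma Cst.mul {x y : Ω} (hx : Cst W0 J x) (hy : Cst W0 J y) : Cst W0 J (x * y) := by
  obtain ⟨hxB, w, hw, hwB, e⟩ := hx
  obtain ⟨hyB, v, hv, hvB, e'⟩ := hy
  refine ⟨mul_mem hxB hyB, _, mul_mem hw hv, mul_mem hwB hvB, ?_⟩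
  convert J.add_mem (J.mul_mem_right (⟨y, hyB⟩ : B) e) (J.mul_mem_left (⟨w, hwB⟩ : B) e') using 1
  exact Subtype.ext (by push_cast; ring)

lemma Cst.congr {x x' : Ω} (hx : Cst W0 J x) (hB : x' ∈ B)
    (h : (⟨x', hB⟩ : B) - ⟨x, hx.mem⟩ ∈ J) : Cst W0 J x' := by
  obtain ⟨hxB, w, hw, hwB, e⟩ := hx
  refine ⟨hB, w, hw, hwB, ?_⟩
  convert J.add_mem h e using 1
  ring

variable [IsLocalRing B]

lemma Cst.inv (hJ : J ≤ maximalIdeal B) (_hWB : W0 ≤ B)
    (hW : ∀ w ∈ W0, ¬ InMax B w → w⁻¹ ∈ W0) {x : Ω} (hx : Cst W0 J x) (h : ¬ InMax B x) :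
    Cst W0 J x⁻¹ := by
  obtain ⟨hxB, w, hw, hwB, e⟩ := hx
  have hwm : ¬ InMax B w := fun hm => h ⟨hxB, by
    have := (maximalIdeal B).add_mem (hJ e) hm.2
    rwa [sub_add_cancel] at this⟩
  obtain ⟨hx0, hxi, -⟩ := inv_mem_of_not_inMax hxB h
  obtain ⟨hw0, hwi, -⟩ := inv_mem_of_not_inMax hwB hwm
  refine ⟨hxi, _, hW w hw hwm, hwi, ?_⟩
  convert J.mul_mem_left (-(⟨_, hxi⟩ * ⟨_, hwi⟩ : B)) e using 1
  exact Subtype.ext (by push_cast; field_simp; ring)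

/-- The `q`-th power of a linear factor with `(x - w)² ∈ J` and `q ∈ J` is constant. -/
lemma linear_pow_congr {R : Type*} [CommRing R] {q : ℕ} (hq : (q : R) = 0) {x w : R}
    (h : (x - w) ^ 2 = 0) : (X - C x) ^ q = (X - C w) ^ q := by
  have key : ∀ n : ℕ, (X - C x) ^ (n + 1)
      = (X - C w) ^ (n + 1) - C ((n + 1 : ℕ) : R) * C (x - w) * (X - C w) ^ n := by
    intro n
    induction n with
    | zero => simp [map_sub]
    | succ n ih =>
      have h2 : (C (x - w)) ^ 2 = 0 := by rw [← map_pow, h, map_zero]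
      rw [pow_succ, ih, show (X - C x : R[X]) = (X - C w) - C (x - w) by rw [map_sub]; ring]
      push_cast
      simp only [map_add, map_natCast, map_one]
      linear_combination ((n : R[X]) + 1) * (X - C w) ^ n * h2
  rcases Nat.eq_zero_or_pos q with rfl | hpos
  · simp
  · obtain ⟨n, rfl⟩ := Nat.exists_eq_add_of_lt hpos
    rw [show 0 + n + 1 = n + 1 by ring] at hq ⊢
    rw [key, hq, map_zero]; ring

/-- A polynomial over `B` which becomes, modulo `J`, a product of `q`-th powers of linear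
factors has constant coefficients. -/
lemma cst_coeff_of_map_eq_prod (hWB : W0 ≤ B) {q : ℕ} (hq : (q : B) ∈ J)
    (hJ2 : maximalIdeal B ^ 2 ≤ J) (hres : ∀ x : B, ∃ w ∈ W0, InMax B ((x : Ω) - w))
    {ι : Type*} (s : Finset ι) (f : ι → B) {p : B[X]}
    (hp : p.map (Ideal.Quotient.mk J) = ∏ i ∈ s, (X - C (Ideal.Quotient.mk J (f i))) ^ q)
    (k : ℕ) : Cst W0 J (p.coeff k : Ω) := by
  classical
  let i0 : W0 →+* B := Subring.inclusion hWB
  choose g hg hgm using fun x : B => hres x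
  have h : ∀ i, (X - C (Ideal.Quotient.mk J (f i))) ^ q
      = ((X - C (i0 ⟨g (f i), hg _⟩)) ^ q : B[X]).map (Ideal.Quotient.mk J) := by
    intro i
    rw [Polynomial.map_pow, Polynomial.map_sub, map_X, map_C]
    refine linear_pow_congr (by rw [← map_natCast (Ideal.Quotient.mk J),
      Ideal.Quotient.eq_zero_iff_mem.2 hq]) ?_
    rw [← map_sub, ← map_pow, Ideal.Quotient.eq_zero_iff_mem]
    refine hJ2 (Ideal.pow_mem_pow ?_ 2)
    exact (inMax_coe).1 (show InMax B (((f i - i0 ⟨g (f i), hg _⟩ : B)) : Ω) from hgm (f i))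
  rw [Finset.prod_congr rfl (fun i _ => h i), ← Polynomial.map_prod] at hp
  have hc := congrArg (fun r => r.coeff k) hp
  simp only [coeff_map, Ideal.Quotient.eq] at hc
  set p0 : (↥W0)[X] := ∏ i ∈ s, (X - C (⟨g (f i), hg _⟩ : W0)) ^ q
  have e : (∏ i ∈ s, (X - C (i0 ⟨g (f i), hg _⟩)) ^ q : B[X]) = p0.map i0 := by
    simp [p0, Polynomial.map_prod, Polynomial.map_pow]
  rw [e, coeff_map] at hc
  exact ⟨(p.coeff k).2, _, (p0.coeff k).2, hWB (p0.coeff k).2, hc⟩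

end Fermat.Agent.Carayol
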