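import Mathlib.RingTheory.Valuation.ExtendToLocalization
import Mathlib.RingTheory.UniqueFactorizationDomain.Multiplicity
import Mathlib.RingTheory.Localization.FractionRing
import Mathlib.Algebra.Order.GroupWithZero.WithZero
import Mathlib.Tactic

/-!
# The valuations of a factorial domain at its prime elements
-/

set_option autoImplicit false

noncomputable section

namespace Fermat.Agent.Carayol

open UniqueFactorizationMonoid WithZero

variable {A : Type*} [CommRing A] [IsDomain A] [UniqueFactorizationMonoid A] {π : A}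

lemma finiteMultiplicity_prime (hπ : Prime π) {a : A} (ha : a ≠ 0) : FiniteMultiplicity π a :=
  FiniteMultiplicity.of_prime_left hπ ha

open scoped Classical in
/-- The valuation at a prime element. -/
def primeValRing (hπ : Prime π) : Valuation A ℤᵐ⁰ where
  toFun a := if a = 0 then 0 else exp (-(multiplicity π a : ℤ))
  map_zero' := if_pos rfl
  map_one' := by
    rw [if_neg one_ne_zero, multiplicity_eq_zero.2 hπ.not_dvd_one]; simp
  map_mul' a b := by
    rcases eq_or_ne a 0 with rfl | ha
    · simp
    rcases eq_or_ne b 0 with rfl | hb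
    · simp
    rw [if_neg (mul_ne_zero ha hb), if_neg ha, if_neg hb, ← exp_add,
      multiplicity_mul hπ (finiteMultiplicity_prime hπ (mul_ne_zero ha hb))]
    push_cast
    ring_nf
  map_add_le_max' a b := by
    rcases eq_or_ne a 0 with rfl | ha
    · simp
    rcases eq_or_ne b 0 with rfl | hb
    · simp
    rcases eq_or_ne (a + b) 0 with h | h
    · simp [h]
    rw [if_neg h, if_neg ha, if_neg hb, le_max_iff, exp_le_exp, exp_le_exp]
    have hd := min_le_emultiplicity_add (p := π) (a := a) (b := b)
    rw [(finiteMultiplicity_prime hπ ha).emultiplicity_eq_multiplicity,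
      (finiteMultiplicity_prime hπ hb).emultiplicity_eq_multiplicity,
      (finiteMultiplicity_prime hπ h).emultiplicity_eq_multiplicity,
      min_le_iff, Nat.cast_le, Nat.cast_le] at hd
    omega

lemma primeValRing_apply (hπ : Prime π) {a : A} (ha : a ≠ 0) :
    primeValRing hπ a = exp (-(multiplicity π a : ℤ)) := if_neg ha

variable (F : Type*) [Field F] [Algebra A F] [IsFractionRing A F]

lemma le_primeCompl_primeValRing (hπ : Prime π) :
    nonZeroDivisors A ≤ (primeValRing hπ).supp.primeCompl := by
  intro a ha
  show a ∉ (primeValRing hπ).supp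
  rw [Valuation.mem_supp_iff, primeValRing_apply hπ (nonZeroDivisors.ne_zero ha)]
  exact exp_ne_zero

/-- The valuation at a prime element, on the fraction field. -/
def primeVal (hπ : Prime π) : Valuation F ℤᵐ⁰ :=
  (primeValRing hπ).extendToLocalization (le_primeCompl_primeValRing hπ) F

variable {F}

lemma primeVal_algebraMap (hπ : Prime π) {a : A} (ha : a ≠ 0) :
    primeVal F hπ (algebraMap A F a) = exp (-(multiplicity π a : ℤ)) := by
  rw [primeVal, Valuation.extendToLocalization_apply_map_apply, primeValRing_apply hπ ha]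

lemma primeVal_unit (hπ : Prime π) {u : A} (hu : IsUnit u) :
    primeVal F hπ (algebraMap A F u) = 1 := by
  rw [primeVal_algebraMap hπ hu.ne_zero,
    multiplicity_eq_zero.2 fun h => hπ.not_isUnit (isUnit_of_dvd_unit h hu)]
  simp

/-- The order at a prime element. -/
def primeOrd (hπ : Prime π) (z : F) : ℤ := -log (primeVal F hπ z)

lemma primeOrd_algebraMap (hπ : Prime π) {a : A} (ha : a ≠ 0) :
    primeOrd hπ (algebraMap A F a) = multiplicity π a := by
  rw [primeOrd, primeVal_algebraMap hπ ha, log_exp, neg_neg]

lemma primeOrd_mul (hπ : Prime π) {x y : F} (hx : x ≠ 0) (hy : y ≠ 0) :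
    primeOrd hπ (x * y) = primeOrd hπ x + primeOrd hπ y := by
  simp only [primeOrd, map_mul,
    log_mul ((primeVal F hπ).ne_zero_iff.mpr hx) ((primeVal F hπ).ne_zero_iff.mpr hy)]
  ring

/-- The order at a prime element, on units. -/
def primeOrdHom (hπ : Prime π) : Additive Fˣ →+ ℤ where
  toFun z := primeOrd hπ ((Additive.toMul z : Fˣ) : F)
  map_zero' := by simp [primeOrd]
  map_add' x y := by
    simp only [toMul_add, Units.val_mul]
    exact primeOrd_mul hπ (Units.ne_zero _) (Units.ne_zero _)

lemma primeOrdHom_apply (hπ : Prime π) (z : Fˣ) :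
    primeOrdHom hπ (Additive.ofMul z) = primeOrd hπ (z : F) := rfl

lemma primeOrd_pow (hπ : Prime π) {x : F} (hx : x ≠ 0) (n : ℕ) :
    primeOrd hπ (x ^ n) = n * primeOrd hπ x := by
  induction n with
  | zero => simp [primeOrd]
  | succ n ih => rw [pow_succ, primeOrd_mul hπ (pow_ne_zero _ hx) hx, ih]; push_cast; ring

/-- If all orders are divisible by `m`, the element is a unit times an `m`-th power. -/
theorem exists_unit_mul_pow {m : ℕ} (hm : m ≠ 0) {z : F} (hz : z ≠ 0)
    (h : ∀ (p : A) (hp : Prime p), (m : ℤ) ∣ primeOrd hp z) :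
    ∃ (u : Aˣ) (g : F), g ≠ 0 ∧ z = algebraMap A F u * g ^ m := by
  classical
  let := UniqueFactorizationMonoid.strongNormalizationMonoid (α := A)
  obtain ⟨a, d, hd, rfl⟩ := IsFractionRing.div_surjective A z
  have hd0 : d ≠ 0 := nonZeroDivisors.ne_zero hd
  have hdF : algebraMap A F d ≠ 0 := (map_ne_zero_iff _ (IsFractionRing.injective A F)).2 hd0
  set r := a * d ^ (m - 1) with hr
  have hrz : algebraMap A F r = algebraMap A F a / algebraMap A F d * algebraMap A F d ^ m := by
    rw [hr, map_mul, map_pow]
    conv_rhs => rw [← Nat.sub_add_cancel (Nat.one_le_iff_ne_zero.2 hm), pow_succ]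
    field_simp
  have ha : a ≠ 0 := by rintro rfl; simp at hz
  have hr0 : r ≠ 0 := mul_ne_zero ha (pow_ne_zero _ hd0)
  have hdiv : ∀ p ∈ normalizedFactors r, m ∣ (normalizedFactors r).count p := by
    intro p hp
    have hpp := prime_of_normalized_factor p hp
    have h1 := primeOrd_algebraMap (F := F) hpp hr0
    rw [hrz, primeOrd_mul hpp hz (pow_ne_zero _ hdF), primeOrd_pow hpp hdF] at h1
    have hc : multiplicity p r = (normalizedFactors r).count p := by
      have := emultiplicity_eq_count_normalizedFactors hpp.irreducible hr0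
      rw [normalize_normalized_factor p hp,
        (finiteMultiplicity_prime hpp hr0).emultiplicity_eq_multiplicity] at this
      exact_mod_cast this
    rw [← hc, ← Int.natCast_dvd_natCast, ← h1]
    exact dvd_add (h p hpp) (dvd_mul_right _ _)
  set s := ∏ p ∈ (normalizedFactors r).toFinset, p ^ ((normalizedFactors r).count p / m) with hs
  have hs0 : s ≠ 0 := Finset.prod_ne_zero_iff.2 fun p hp =>
    pow_ne_zero _ (prime_of_normalized_factor p (Multiset.mem_toFinset.1 hp)).ne_zero
  have hprod : s ^ m = (normalizedFactors r).prod := by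
    rw [hs, ← Finset.prod_pow, Finset.prod_multiset_count]
    refine Finset.prod_congr rfl fun p hp => ?_
    rw [← pow_mul, Nat.div_mul_cancel (hdiv p (Multiset.mem_toFinset.1 hp))]
  obtain ⟨u, hu⟩ := prod_normalizedFactors hr0
  rw [← hprod] at hu
  refine ⟨u, algebraMap A F s / algebraMap A F d,
    div_ne_zero ((map_ne_zero_iff _ (IsFractionRing.injective A F)).2 hs0) hdF, ?_⟩
  rw [div_pow, ← map_pow, ← mul_div_assoc, ← map_mul, mul_comm ((u : A)), hu, hrz]
  field_simp

end Fermat.Agent.Carayol
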