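import Fermat.Agent.Carayol.Base
import Fermat.Agent.Carayol.PrimeVal
import Mathlib.RingTheory.PowerSeries.Ideal
import Mathlib.RingTheory.PowerSeries.Inverse
import Mathlib.RingTheory.AdicCompletion.Completeness
import Mathlib.RingTheory.RootsOfUnity.AlgebraicallyClosed
import Mathlib.Algebra.Polynomial.EraseLead

/-!
# Power series over the base at a cusp

A `SerBase` is a discrete valuation ring `O` over the unramified base `W` with enough roots; it
may be ramified at `q`, as it has to contain the `q`-th roots of unity. Facts about `O⟦t⟧` and its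
field of fractions: the valuation at the uniformiser, elements with bounded pole, roots of units,
and the recognition of polynomials over `W` in a series with a simple shape.
-/

set_option autoImplicit false

noncomputable section

namespace Fermat.Agent.Carayol

open IsLocalRing Polynomial WithZero

universe u

variable {K : Type u} [Field K] {q : ℕ}

/-- The coefficient ring of the series at a cusp: a discrete valuation ring over `W` in which `W`
is closed and units have roots of order prime to `q`. -/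
structure SerBase (U : UnramBase K q) where
  /-- The ring. -/
  O : Type u
  [comm : CommRing O]
  [dom : IsDomain O]
  [dvr : IsDiscreteValuationRing O]
  root : ∀ {m : ℕ}, IsUnit (m : O) → ∀ {a : O}, IsUnit a → ∃ b, b ^ m = a
  /-- The structure map. -/
  ψ : U.W →+* O
  ψ_injective : Function.Injective ψ
  /-- The uniformiser. -/
  π : O
  irr : Irreducible π
  dvd_q : π ∣ (q : O)
  q_ne : (q : O) ≠ 0
  closed : ∀ a, (∀ n : ℕ, ∃ w, π ^ n ∣ a - ψ w) → a ∈ ψ.range

attribute [instance] SerBase.comm SerBase.dom SerBase.dvr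

variable {U : UnramBase K q} (S : SerBase U)

namespace SerBase

/-- A primitive root of unity in the base, with primitive reduction. -/
lemma exists_root_of_unity (U : UnramBase K q) {m : ℕ} (hm : IsUnit (m : U.W)) :
    ∃ ζ : U.W, IsPrimitiveRoot ζ m ∧ IsPrimitiveRoot (IsLocalRing.residue U.W ζ) m := by
  have := U.residue
  have hmκ : (m : ResidueField U.W) ≠ 0 := by
    rw [← map_natCast (IsLocalRing.residue U.W)]; exact (hm.map _).ne_zero
  have : NeZero (m : ResidueField U.W) := ⟨hmκ⟩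
  have : NeZero m := ⟨fun h => hmκ (by simp [h])⟩
  obtain ⟨r, hr⟩ := HasEnoughRootsOfUnity.exists_primitiveRoot (ResidueField U.W) m
  obtain ⟨a, rfl⟩ := IsLocalRing.residue_surjective r
  have := U.hens
  obtain ⟨ζ, hζ, hζa⟩ := HenselianLocalRing.is_henselian (X ^ m - C (1 : U.W))
    (monic_X_pow_sub_C _ (NeZero.ne m)) a
    (by rw [← residue_eq_zero_iff]; simp [hr.pow_eq_one])
    (by
      rw [derivative_sub, derivative_X_pow, derivative_C, sub_zero, eval_mul, eval_C, eval_pow,
        eval_X]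
      exact hm.mul ((residue_ne_zero_iff_isUnit _).1 (hr.ne_zero (NeZero.ne m)) |>.pow _))
  rw [IsRoot, eval_sub, eval_pow, eval_X, eval_C, sub_eq_zero] at hζ
  have hres : IsLocalRing.residue U.W ζ = IsLocalRing.residue U.W a := by
    rw [← sub_eq_zero, ← map_sub, residue_eq_zero_iff]; exact hζa
  refine ⟨ζ, ⟨hζ, fun l hl => hr.dvd_of_pow_eq_one l ?_⟩, hres ▸ hr⟩
  rw [← hres, ← map_pow, hl, map_one]

/-- The field of fractions of the power series. -/
abbrev SerF : Type u := FractionRing (PowerSeries S.O)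

/-- Series in the field. -/
abbrev ser : PowerSeries S.O →+* S.SerF := algebraMap _ _

/-- Constants in the field. -/
def cst : U.W →+* S.SerF := S.ser.comp ((PowerSeries.C).comp S.ψ)

/-- The parameter. -/
def tvar : S.SerF := S.ser PowerSeries.X

lemma ser_injective : Function.Injective S.ser := IsFractionRing.injective _ _

lemma cst_injective : Function.Injective S.cst :=
  S.ser_injective.comp (PowerSeries.C_injective.comp S.ψ_injective)

lemma tvar_ne_zero : S.tvar ≠ 0 :=
  (map_ne_zero_iff _ S.ser_injective).2 PowerSeries.X_ne_zero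

lemma max_eq : maximalIdeal S.O = Ideal.span {S.π} :=
  (IsDiscreteValuationRing.irreducible_iff_uniformizer _).1 S.irr

lemma π_dvd_iff {w : S.O} : S.π ∣ w ↔ IsLocalRing.residue S.O w = 0 := by
  rw [residue_eq_zero_iff, S.max_eq, Ideal.mem_span_singleton]

lemma π_dvd_series_iff {r : PowerSeries S.O} :
    PowerSeries.C S.π ∣ r ↔ PowerSeries.map (IsLocalRing.residue S.O) r = 0 := by
  constructor
  · rintro ⟨s, rfl⟩
    rw [map_mul, PowerSeries.map_C, S.π_dvd_iff.1 dvd_rfl, map_zero, zero_mul]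
  · intro h
    have hc : ∀ i, ∃ c, PowerSeries.coeff i r = S.π * c := fun i => by
      refine S.π_dvd_iff.2 ?_
      rw [← PowerSeries.coeff_map, h, map_zero]
    choose c hc using hc
    refine ⟨PowerSeries.mk c, PowerSeries.ext fun i => ?_⟩
    rw [PowerSeries.coeff_C_mul, PowerSeries.coeff_mk, hc]

lemma prime_π : Prime (PowerSeries.C S.π) := by
  refine ⟨(map_ne_zero_iff _ PowerSeries.C_injective).2 S.irr.ne_zero, ?_, fun a b h => ?_⟩
  · rw [PowerSeries.isUnit_iff_constantCoeff, PowerSeries.constantCoeff_C]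
    exact S.irr.not_isUnit
  · rw [S.π_dvd_series_iff, map_mul, mul_eq_zero] at h
    exact h.imp S.π_dvd_series_iff.2 S.π_dvd_series_iff.2

lemma not_π_dvd_X : ¬ PowerSeries.C S.π ∣ PowerSeries.X := by
  rw [S.π_dvd_series_iff, PowerSeries.map_X]
  exact PowerSeries.X_ne_zero

lemma natCast_q_ne_zero : (q : PowerSeries S.O) ≠ 0 := by
  rw [← map_natCast (PowerSeries.C (R := S.O))]
  exact (map_ne_zero_iff _ PowerSeries.C_injective).2 S.q_ne

lemma dvd_π_of_dvd_q {p : PowerSeries S.O} (hp : Prime p) (h : p ∣ (q : PowerSeries S.O)) :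
    p ∣ PowerSeries.C S.π := by
  obtain ⟨k, u, hu⟩ := IsDiscreteValuationRing.eq_unit_mul_pow_irreducible S.q_ne S.irr
  rw [← map_natCast (PowerSeries.C (R := S.O)), hu, map_mul, map_pow] at h
  rcases hp.dvd_or_dvd h with h | h
  · exact absurd (isUnit_of_dvd_unit h (u.isUnit.map _)) hp.not_isUnit
  · exact hp.dvd_of_dvd_pow h

/-- The valuation at the uniformiser. -/
def gauss : Valuation S.SerF ℤᵐ⁰ := primeVal S.SerF S.prime_π

lemma gauss_tvar : S.gauss S.tvar = 1 := by
  rw [gauss, tvar, primeVal_algebraMap _ PowerSeries.X_ne_zero,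
    multiplicity_eq_zero.2 S.not_π_dvd_X]
  simp

lemma gauss_ser_le (r : PowerSeries S.O) : S.gauss (S.ser r) ≤ 1 := by
  rcases eq_or_ne r 0 with rfl | hr
  · simp
  rw [gauss, primeVal_algebraMap _ hr, ← exp_zero, exp_le_exp]
  omega

lemma gauss_cst_unit {w : U.W} (hw : IsUnit w) : S.gauss (S.cst w) = 1 :=
  primeVal_unit _ ((hw.map S.ψ).map (PowerSeries.C (R := S.O)))

lemma gauss_π : S.gauss (S.ser (PowerSeries.C S.π)) = exp (-1 : ℤ) := by
  rw [gauss, primeVal_algebraMap _ S.prime_π.ne_zero,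
    multiplicity_eq_of_dvd_of_not_dvd (k := 1) (by rw [pow_one]) ?_]
  · simp
  · rw [pow_succ, pow_one]
    intro h
    exact S.prime_π.not_isUnit (isUnit_of_dvd_one
      ((mul_dvd_mul_iff_left S.prime_π.ne_zero).1 (by rwa [mul_one])))

lemma dvd_of_gauss_le {r : PowerSeries S.O} {n : ℕ}
    (h : S.gauss (S.ser r) ≤ exp (-(n : ℤ))) : PowerSeries.C S.π ^ n ∣ r := by
  rcases eq_or_ne r 0 with rfl | hr
  · exact dvd_zero _
  rw [gauss, primeVal_algebraMap _ hr, exp_le_exp] at h
  exact pow_dvd_of_le_multiplicity (by omega)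

lemma gauss_le_of_dvd {r : PowerSeries S.O} (h : PowerSeries.C S.π ∣ r) :
    S.gauss (S.ser r) < 1 := by
  obtain ⟨s, rfl⟩ := h
  rw [map_mul, map_mul, gauss_π]
  refine lt_of_le_of_lt (mul_le_of_le_one_right' (S.gauss_ser_le s)) ?_
  rw [← exp_zero, exp_lt_exp]; omega

lemma gauss_natCast_lt : S.gauss (q : S.SerF) < 1 := by
  rw [← map_natCast S.ser, ← map_natCast (PowerSeries.C (R := S.O))]
  exact S.gauss_le_of_dvd (map_dvd _ S.dvd_q)

lemma eq_zero_of_forall_pow_dvd {w : S.O} (h : ∀ n : ℕ, S.π ^ n ∣ w) : w = 0 := by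
  by_contra hw
  obtain ⟨n, hn⟩ : FiniteMultiplicity S.π w :=
    FiniteMultiplicity.of_not_isUnit S.irr.not_isUnit hw
  exact hn (h _)

lemma pow_dvd_coeff {r : PowerSeries S.O} {n : ℕ} (h : PowerSeries.C S.π ^ n ∣ r) (i : ℕ) :
    S.π ^ n ∣ PowerSeries.coeff i r := by
  obtain ⟨s, rfl⟩ := h
  refine ⟨PowerSeries.coeff i s, ?_⟩
  rw [← PowerSeries.coeff_C_mul, map_pow]

/-- Bounded pole at the cusp. -/
def Bd (z : S.SerF) : Prop := ∃ (M : ℕ) (r : PowerSeries S.O), z * S.tvar ^ M = S.ser r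

variable {S}

lemma bd_ser (r : PowerSeries S.O) : S.Bd (S.ser r) := ⟨0, r, by simp⟩

lemma bd_cst (w : U.W) : S.Bd (S.cst w) := bd_ser _

lemma bd_zero : S.Bd 0 := ⟨0, 0, by simp⟩

lemma bd_one : S.Bd 1 := ⟨0, 1, by simp⟩

lemma Bd.mul {y z : S.SerF} (hy : S.Bd y) (hz : S.Bd z) : S.Bd (y * z) := by
  obtain ⟨M, r, h⟩ := hy
  obtain ⟨M', r', h'⟩ := hz
  exact ⟨M + M', r * r', by rw [map_mul, ← h, ← h', pow_add]; ring⟩

lemma Bd.add {y z : S.SerF} (hy : S.Bd y) (hz : S.Bd z) : S.Bd (y + z) := by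
  obtain ⟨M, r, h⟩ := hy
  obtain ⟨M', r', h'⟩ := hz
  refine ⟨M + M', r * PowerSeries.X ^ M' + r' * PowerSeries.X ^ M, ?_⟩
  rw [map_add, map_mul, map_mul, ← h, ← h', map_pow, map_pow, pow_add, tvar]
  ring

lemma Bd.neg {y : S.SerF} (hy : S.Bd y) : S.Bd (-y) := by
  obtain ⟨M, r, h⟩ := hy
  exact ⟨M, -r, by rw [map_neg, ← h, neg_mul]⟩

variable (S) in
/-- The elements with bounded pole. -/
def bdRing : Subring S.SerF where
  carrier := {z | S.Bd z}
  mul_mem' := Bd.mul
  one_mem' := bd_one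
  add_mem' := Bd.add
  zero_mem' := bd_zero
  neg_mem' := Bd.neg

lemma gauss_le_one_of_bd {z : S.SerF} (h : S.Bd z) : S.gauss z ≤ 1 := by
  obtain ⟨M, r, e⟩ := h
  have := congrArg S.gauss e
  rw [map_mul, map_pow, gauss_tvar, one_pow, mul_one] at this
  exact this ▸ S.gauss_ser_le r

/-- Elements integral over elements with bounded pole have bounded pole. -/
lemma bd_of_monic {p : S.SerF[X]} (hp : p.Monic) (hc : ∀ i, S.Bd (p.coeff i)) {z : S.SerF}
    (hz : p.eval z = 0) : S.Bd z := by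
  classical
  choose M r hM using hc
  set N := ∑ i ∈ Finset.range (p.natDegree + 1), M i
  have hle : ∀ i < p.natDegree, ∃ a, S.ser a = p.coeff i * (S.tvar ^ N) ^ (p.natDegree - i) := by
    intro i hi
    have h1 : M i ≤ N * (p.natDegree - i) := (Finset.single_le_sum (fun j _ => Nat.zero_le (M j))
      (Finset.mem_range.2 (by omega : i < p.natDegree + 1))).trans
        (Nat.le_mul_of_pos_right _ (by omega))
    refine ⟨r i * PowerSeries.X ^ (N * (p.natDegree - i) - M i), ?_⟩
    rw [map_mul, map_pow, ← hM, ← pow_mul, mul_assoc]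
    show _ * (S.tvar ^ _ * S.tvar ^ _) = _
    rw [← pow_add, Nat.add_sub_cancel' h1]
  have hco : ∀ i, ∃ a, S.ser a = (p.scaleRoots (S.tvar ^ N)).coeff i := by
    intro i
    rw [coeff_scaleRoots]
    rcases lt_trichotomy i p.natDegree with hi | rfl | hi
    · exact hle i hi
    · exact ⟨1, by simp [hp.coeff_natDegree]⟩
    · exact ⟨0, by simp [coeff_eq_zero_of_natDegree_lt hi]⟩
  obtain ⟨p', hp', hdeg, hmon⟩ := lifts_and_natDegree_eq_and_monic
    ((lifts_iff_coeff_lifts _).2 fun i => Set.mem_range.2 (hco i))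
    ((monic_scaleRoots_iff _).2 hp)
  have hint : IsIntegral (PowerSeries S.O) (S.tvar ^ N * z) := by
    refine ⟨p', hmon, ?_⟩
    rw [← eval_map, hp']
    have := scaleRoots_eval₂_eq_zero (f := RingHom.id S.SerF) (s := S.tvar ^ N) hz
    exact this
  obtain ⟨a, ha⟩ := IsIntegrallyClosed.algebraMap_eq_of_integral hint
  exact ⟨N, a, by rw [mul_comm, ← ha]⟩

lemma isUnit_natCast {m : ℕ} (hm : IsUnit (m : U.W)) : IsUnit (m : S.O) :=
  map_natCast S.ψ m ▸ hm.map S.ψ

/-- Units of the base have roots. -/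
lemma exists_root_base {m : ℕ} (hm : IsUnit (m : S.O)) {a : S.O} (ha : IsUnit a) :
    ∃ b : S.O, b ^ m = a :=
  S.root hm ha

/-- Units of the series have roots. -/
lemma exists_root_series {m : ℕ} (hm : IsUnit (m : S.O)) (u : (PowerSeries S.O)ˣ) :
    ∃ v : PowerSeries S.O, v ^ m = u := by
  have hm0 : m ≠ 0 := fun h => by simp [h] at hm
  have hc0 := PowerSeries.isUnit_iff_constantCoeff.1 u.isUnit
  obtain ⟨b, hb⟩ := exists_root_base hm hc0
  have hbu : IsUnit b := (isUnit_pow_iff hm0).1 (hb ▸ hc0)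
  have : HenselianRing (PowerSeries S.O) (Ideal.span {PowerSeries.X}) :=
    IsAdicComplete.henselianRing _ _
  obtain ⟨v, hv, -⟩ := HenselianRing.is_henselian (I := Ideal.span {PowerSeries.X})
    (X ^ m - C (u : PowerSeries S.O)) (monic_X_pow_sub_C _ hm0) (PowerSeries.C b)
    (by
      rw [Ideal.mem_span_singleton, PowerSeries.X_dvd_iff]
      simp [hb])
    (by
      refine IsUnit.map _ ?_
      rw [derivative_sub, derivative_X_pow, derivative_C, sub_zero, eval_mul, eval_C, eval_pow,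
        eval_X]
      exact (map_natCast (PowerSeries.C (R := S.O)) m ▸ hm.map _).mul
        ((hbu.map _).pow _))
  exact ⟨v, by simpa [IsRoot, sub_eq_zero] using hv⟩

/-- An element congruent to `1` at the uniformiser whose orders at the other primes are divisible by `m`
times an `m`-th power has a root. -/
lemma exists_root_of_orders {m : ℕ} (hm : IsUnit (m : S.O)) {z h : S.SerF} (hh : h ≠ 0)
    (hz : S.gauss (z / h ^ m - 1) < 1)
    (hor : ∀ (p : PowerSeries S.O) (hp : Prime p), ¬ p ∣ (q : PowerSeries S.O) →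
      (m : ℤ) ∣ log (primeVal S.SerF hp z)) :
    ∃ y, y ^ m = z := by
  have hm0 : m ≠ 0 := fun e => by simp [e] at hm
  have h1 : S.gauss (z / h ^ m) = 1 := Valuation.map_eq_of_sub_lt _ (by rwa [map_one]) |>.trans
    (map_one _)
  have hz0 : z ≠ 0 := by rintro rfl; simp at h1
  obtain ⟨u, g, hg, e⟩ := exists_unit_mul_pow (A := PowerSeries S.O) hm0 hz0 fun p hp => by
    rw [primeOrd, dvd_neg]
    by_cases hpq : p ∣ (q : PowerSeries S.O)
    · have hassoc : Associated p (PowerSeries.C S.π) :=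
        hp.irreducible.associated_of_dvd S.prime_π.irreducible (S.dvd_π_of_dvd_q hp hpq)
      have hv : primeVal S.SerF hp = S.gauss := by
        refine Valuation.ext fun x => ?_
        obtain ⟨a, d, hd, rfl⟩ := IsFractionRing.div_surjective (PowerSeries S.O) x
        rcases eq_or_ne a 0 with rfl | ha
        · simp
        rw [map_div₀, map_div₀, gauss, primeVal_algebraMap hp ha,
          primeVal_algebraMap hp (nonZeroDivisors.ne_zero hd), primeVal_algebraMap _ ha,
          primeVal_algebraMap _ (nonZeroDivisors.ne_zero hd),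
          multiplicity_eq_of_associated_left hassoc,
          multiplicity_eq_of_associated_left hassoc]
      rw [hv]
      rw [map_div₀, map_pow, div_eq_one_iff_eq (pow_ne_zero _ (S.gauss.ne_zero_iff.2 hh))] at h1
      rw [h1, log_pow, nsmul_eq_mul]
      exact dvd_mul_right _ _
    · exact hor p hp hpq
  obtain ⟨v, hv⟩ := exists_root_series hm u
  exact ⟨S.ser v * g, by rw [mul_pow, ← map_pow, hv, e]⟩

section Poly

variable {S₀ : SerBase U} {J : S₀.SerF} {N : ℕ} {p : PowerSeries S₀.O}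

/-- Polynomials over the base in `J`. -/
def evalSer (J : S₀.SerF) : U.W[X] →+* S₀.SerF := eval₂RingHom S₀.cst J

lemma evalSer_mul_pow (hJ : J * S₀.tvar ^ N = S₀.ser p) {P : U.W[X]} {D : ℕ}
    (hP : P.natDegree ≤ D) :
    evalSer J P * S₀.tvar ^ (D * N) = S₀.ser (∑ k ∈ Finset.range (D + 1),
      PowerSeries.C (S₀.ψ (P.coeff k)) * p ^ k * PowerSeries.X ^ ((D - k) * N)) := by
  rw [evalSer, coe_eval₂RingHom, eval₂_eq_sum_range' _ (Nat.lt_succ_of_le hP), Finset.sum_mul,
    map_sum]
  refine Finset.sum_congr rfl fun k hk => ?_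
  rw [map_mul, map_mul, map_pow, map_pow, ← hJ, mul_pow, ← pow_mul]
  rw [Finset.mem_range] at hk
  rw [show D * N = N * k + (D - k) * N by
    rw [Nat.mul_comm N k, ← Nat.add_mul, Nat.add_sub_cancel' (by omega)], pow_add]
  simp only [cst, RingHom.comp_apply, tvar]
  ring

lemma constantCoeff_sum (hN : 1 ≤ N) (c : ℕ → S₀.O) (D : ℕ) :
    PowerSeries.constantCoeff (∑ k ∈ Finset.range (D + 1),
      PowerSeries.C (c k) * p ^ k * PowerSeries.X ^ ((D - k) * N))
      = c D * PowerSeries.constantCoeff p ^ D := by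
  rw [map_sum, Finset.sum_range_succ, Finset.sum_eq_zero, zero_add]
  · simp
  · intro k hk
    rw [Finset.mem_range] at hk
    have : (D - k) * N ≠ 0 := Nat.mul_ne_zero (by omega) (by omega)
    simp [zero_pow this]

lemma eraseLead_step (hJ : J * S₀.tvar ^ N = S₀.ser p) (hN : 1 ≤ N)
    (hp : IsUnit (PowerSeries.constantCoeff p)) {s : S₀.SerF} {D : ℕ} {S : PowerSeries S₀.O}
    (hS : s * S₀.tvar ^ (D * N) = S₀.ser S) {n : ℕ} {P : U.W[X]} (hPd : D < P.natDegree)
    (hP : S₀.gauss (evalSer J P - s) ≤ exp (-(n : ℤ))) :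
    S₀.gauss (evalSer J P.eraseLead - s) ≤ exp (-(n : ℤ)) := by
  set e := P.natDegree
  have hdiff : S₀.ser ((∑ k ∈ Finset.range (e + 1),
      PowerSeries.C (S₀.ψ (P.coeff k)) * p ^ k * PowerSeries.X ^ ((e - k) * N))
        - S * PowerSeries.X ^ ((e - D) * N)) = (evalSer J P - s) * S₀.tvar ^ (e * N) := by
    rw [map_sub, ← evalSer_mul_pow hJ le_rfl, map_mul, ← hS, map_pow, sub_mul,
      show e * N = D * N + (e - D) * N by rw [← Nat.add_mul, Nat.add_sub_cancel' hPd.le],
      pow_add, tvar, mul_assoc]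
  have hdvd := S₀.pow_dvd_coeff (S₀.dvd_of_gauss_le (n := n) (by
    rw [hdiff, map_mul, map_pow, gauss_tvar, one_pow, mul_one]; exact hP)) 0
  rw [PowerSeries.coeff_zero_eq_constantCoeff, map_sub, constantCoeff_sum hN, map_mul, map_pow,
    PowerSeries.constantCoeff_X, zero_pow (Nat.mul_ne_zero (by omega) (by omega)), mul_zero,
    sub_zero, (hp.pow e).dvd_mul_right] at hdvd
  obtain ⟨c, hc⟩ := hdvd
  have hlead : S₀.gauss (evalSer J (C (P.coeff e) * X ^ e)) ≤ exp (-(n : ℤ)) := by
    have hJ1 : S₀.gauss J ≤ 1 := gauss_le_one_of_bd ⟨N, p, hJ⟩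
    rw [evalSer, coe_eval₂RingHom, eval₂_mul, eval₂_C, eval₂_X_pow, map_mul, map_pow,
      show S₀.cst (P.coeff e) = S₀.ser (PowerSeries.C (S₀.ψ (P.coeff e))) from rfl, hc,
      map_mul PowerSeries.C, map_pow PowerSeries.C, map_mul S₀.ser, map_pow S₀.ser, map_mul,
      map_pow, gauss_π, ← exp_nsmul]
    refine le_trans (mul_le_of_le_one_right' (pow_le_one' hJ1 _)) ?_
    refine le_trans (mul_le_of_le_one_right' (S₀.gauss_ser_le _)) ?_
    simp
  have heq : P.eraseLead = P - C (P.coeff e) * X ^ e := (self_sub_C_mul_X_pow P).symm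
  rw [heq, map_sub (evalSer J),
    show evalSer J P - evalSer J (C (P.coeff e) * X ^ e) - s
      = (evalSer J P - s) - evalSer J (C (P.coeff e) * X ^ e) by ring]
  exact (Valuation.map_sub _ _ _).trans (max_le hP hlead)

lemma exists_natDegree_le (hJ : J * S₀.tvar ^ N = S₀.ser p) (hN : 1 ≤ N)
    (hp : IsUnit (PowerSeries.constantCoeff p)) {s : S₀.SerF} {D : ℕ} {S : PowerSeries S₀.O}
    (hS : s * S₀.tvar ^ (D * N) = S₀.ser S) {n : ℕ} (P : U.W[X])
    (hP : S₀.gauss (evalSer J P - s) ≤ exp (-(n : ℤ))) :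
    ∃ P' : U.W[X], P'.natDegree ≤ D ∧ S₀.gauss (evalSer J P' - s) ≤ exp (-(n : ℤ)) := by
  induction h : P.natDegree using Nat.strong_induction_on generalizing P with
  | _ e ih =>
    by_cases he : e ≤ D
    · exact ⟨P, h ▸ he, hP⟩
    · refine ih _ ?_ _ (eraseLead_step hJ hN hp hS (h ▸ not_le.1 he) hP) rfl
      have := P.eraseLead_natDegree_le
      omega

/-- An element with bounded pole approximated by polynomials in `J` is a polynomial in `J`. -/
theorem exists_eq_evalSer (hJ : J * S₀.tvar ^ N = S₀.ser p) (hN : 1 ≤ N)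
    (hp : IsUnit (PowerSeries.constantCoeff p)) {s : S₀.SerF} (hs : S₀.Bd s)
    (happ : ∀ n : ℕ, ∃ P : U.W[X], S₀.gauss (evalSer J P - s) ≤ exp (-(n : ℤ))) :
    ∃ P : U.W[X], evalSer J P = s := by
  obtain ⟨M, r, hr⟩ := hs
  obtain ⟨S, hS⟩ : ∃ S, s * S₀.tvar ^ (M * N) = S₀.ser S :=
    ⟨r * PowerSeries.X ^ (M * N - M), by
      rw [map_mul, ← hr, map_pow, mul_assoc]
      congr 1
      show S₀.tvar ^ _ = S₀.tvar ^ _ * S₀.tvar ^ _
      rw [← pow_add, Nat.add_sub_cancel' (Nat.le_mul_of_pos_right _ (by omega))]⟩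
  clear hr
  induction M generalizing s S with
  | zero =>
    rw [zero_mul, pow_zero, mul_one] at hS
    have happ' : ∀ n : ℕ, ∃ P : U.W[X], ∀ k,
        S₀.π ^ n ∣ PowerSeries.coeff k (PowerSeries.C (S₀.ψ (P.coeff 0)) - S) := fun n => by
      obtain ⟨P, hP⟩ := happ n
      obtain ⟨P', hd, hP'⟩ := exists_natDegree_le hJ hN hp (D := 0) (by simpa using hS) P hP
      have hP0 : evalSer J P' = S₀.ser
          (PowerSeries.C (S₀.ψ (P'.coeff 0))) := by
        simpa using evalSer_mul_pow hJ hd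
      rw [hP0, hS, ← map_sub] at hP'
      exact ⟨P', fun k => pow_dvd_coeff _ (dvd_of_gauss_le _ hP') k⟩
    obtain ⟨w, hw⟩ := S₀.closed (PowerSeries.constantCoeff S) fun n => by
      obtain ⟨P, hP⟩ := happ' n
      refine ⟨P.coeff 0, ?_⟩
      have := hP 0
      rwa [map_sub, PowerSeries.coeff_C, if_pos rfl, PowerSeries.coeff_zero_eq_constantCoeff,
        dvd_sub_comm] at this
    refine ⟨C w, ?_⟩
    have key : S = PowerSeries.C (PowerSeries.constantCoeff S) := by
      refine PowerSeries.ext fun i => ?_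
      rcases Nat.eq_zero_or_pos i with rfl | hi
      · simp
      rw [PowerSeries.coeff_C, if_neg hi.ne']
      refine eq_zero_of_forall_pow_dvd _ fun n => ?_
      obtain ⟨P, hP⟩ := happ' n
      have := hP i
      rwa [map_sub, PowerSeries.coeff_C, if_neg hi.ne', zero_sub, dvd_neg] at this
    rw [hS, key, ← hw]
    simp [evalSer, cst]
  | succ M ih =>
    obtain ⟨v, hv⟩ := (hp.pow (M + 1)).exists_right_inv
    obtain ⟨c, hc⟩ := S₀.closed (PowerSeries.constantCoeff S * v) fun n => by
      obtain ⟨P, hP⟩ := happ n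
      obtain ⟨P', hd, hP'⟩ := exists_natDegree_le hJ hN hp hS P hP
      refine ⟨P'.coeff (M + 1), ?_⟩
      have h0 := pow_dvd_coeff _ (dvd_of_gauss_le _ (n := n) (r := (∑ k ∈ Finset.range (M + 1 + 1),
          PowerSeries.C (S₀.ψ (P'.coeff k)) * p ^ k * PowerSeries.X ^ ((M + 1 - k) * N)) - S) (by
        rw [map_sub, ← evalSer_mul_pow hJ hd, ← hS, ← sub_mul, map_mul, map_pow, gauss_tvar,
          one_pow, mul_one]
        exact hP')) 0
      rw [PowerSeries.coeff_zero_eq_constantCoeff, map_sub, constantCoeff_sum hN] at h0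
      have := dvd_mul_of_dvd_left h0 v
      rw [sub_mul, mul_assoc, hv, mul_one] at this
      exact dvd_sub_comm.1 this
    set S' := S - PowerSeries.C (S₀.ψ c) * p ^ (M + 1)
    set s' := s - evalSer J (C c * X ^ (M + 1)) with hs'
    have hS' : s' * S₀.tvar ^ ((M + 1) * N) = S₀.ser S' := by
      rw [hs', sub_mul, hS, map_sub]
      congr 1
      rw [evalSer, coe_eval₂RingHom, eval₂_mul, eval₂_C, eval₂_X_pow,
        map_mul S₀.ser (PowerSeries.C (S₀.ψ c)), map_pow S₀.ser, ← hJ,
        mul_pow, ← pow_mul, Nat.mul_comm (M + 1) N, mul_assoc]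
      rfl
    have happ' : ∀ n : ℕ, ∃ P : U.W[X], S₀.gauss (evalSer J P - s') ≤ exp (-(n : ℤ)) := by
      intro n
      obtain ⟨P, hP⟩ := happ n
      refine ⟨P - C c * X ^ (M + 1), ?_⟩
      rwa [map_sub (evalSer J), hs', sub_sub_sub_cancel_right]
    have hX : PowerSeries.X ^ N ∣ S' := by
      rw [PowerSeries.X_pow_dvd_iff]
      intro i hi
      refine S₀.eq_zero_of_forall_pow_dvd fun n => ?_
      obtain ⟨P, hP⟩ := happ' n
      obtain ⟨P', hd, hP'⟩ := exists_natDegree_le hJ hN hp hS' P hP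
      have hval : S₀.gauss (S₀.ser ((∑ k ∈ Finset.range (M + 1 + 1),
          PowerSeries.C (S₀.ψ (P'.coeff k)) * p ^ k * PowerSeries.X ^ ((M + 1 - k) * N)) - S'))
            ≤ exp (-(n : ℤ)) := by
        rw [map_sub, ← evalSer_mul_pow hJ hd, ← hS', ← sub_mul, map_mul, map_pow, gauss_tvar,
          one_pow, mul_one]
        exact hP'
      have h0 := S₀.pow_dvd_coeff (S₀.dvd_of_gauss_le hval) 0
      have hi' := S₀.pow_dvd_coeff (S₀.dvd_of_gauss_le hval) i
      have hS'0 : PowerSeries.constantCoeff S' = 0 := by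
        simp only [S', hc, map_sub, map_mul, map_pow, PowerSeries.constantCoeff_C]
        rw [mul_assoc, mul_comm v, hv, mul_one, sub_self]
      rw [PowerSeries.coeff_zero_eq_constantCoeff, map_sub, constantCoeff_sum hN, hS'0, sub_zero,
        (hp.pow (M + 1)).dvd_mul_right] at h0
      rw [map_sub, map_sum, Finset.sum_range_succ, Finset.sum_eq_zero, zero_add,
        Nat.sub_self, zero_mul, pow_zero, mul_one, PowerSeries.coeff_C_mul] at hi'
      · exact (dvd_sub_right (h0.mul_right _)).1 hi'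
      · intro k hk
        rw [Finset.mem_range] at hk
        rw [PowerSeries.coeff_mul_X_pow', if_neg]
        have : N ≤ (M + 1 - k) * N := Nat.le_mul_of_pos_left _ (by omega)
        omega
    obtain ⟨S'', hS''⟩ := hX
    obtain ⟨P, hP⟩ := ih happ' S'' (by
      refine mul_right_cancel₀ (pow_ne_zero N S₀.tvar_ne_zero) ?_
      rw [mul_assoc, ← pow_add, show M * N + N = (M + 1) * N by ring, hS', hS'', map_mul, map_pow]
      exact mul_comm _ _)
    exact ⟨P + C c * X ^ (M + 1), by rw [map_add, hP, hs', sub_add_cancel]⟩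

end Poly

end SerBase

end Fermat.Agent.Carayol
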