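import Fermat.Agent.Carayol.Points
import Mathlib.Data.ZMod.Basic
import Mathlib.Algebra.Polynomial.Roots

/-!
# The kernel of reduction meets the `q`-torsion
-/

set_option autoImplicit false

namespace Fermat.Agent.Carayol

open WeierstrassCurve IsLocalRing Polynomial

variable {Ω : Type*} [Field Ω] [DecidableEq Ω] {b c : Ω}

/-- A prime `q`, an integer `n` prime to `q` killing the marked point, and full `q`-torsion. -/
structure TorsFrame (b c : Ω) where
  hb : b ≠ 0
  n : ℕ
  q : ℕ
  hn0 : n ≠ 0
  hq : q.Prime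
  hnq : n.Coprime q
  hchar : (q : Ω) ≠ 0
  /-- The `q`-torsion. -/
  qTors : (Fin 2 → ZMod q) →+ (tateCurve b c).toAffine.Point
  qTors_injective : Function.Injective qTors
  nR : n • tatePt (c := c) hb = 0
  smulR : ∀ k ∈ ({1, 2, 3, 4, 5, 6, 8} : Finset ℕ), k • tatePt (c := c) hb ≠ 0

namespace TorsFrame

variable (T : TorsFrame b c)

lemma nsmul_qTors (v : Fin 2 → ZMod T.q) : T.q • T.qTors v = 0 := by
  rw [← map_nsmul]
  have : T.q • v = 0 := by funext i; simp
  rw [this, map_zero]

/-- Good position relative to the fibre: `q` lies in the maximal ideal and `n` is a unit. -/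
def IsOver (F : GoodFibre b c) : Prop :=
  InMax F.O (T.q : Ω) ∧ IsUnit (T.n : F.O)

/-- A polynomial over `O` with many roots in `O` and leading coefficient in the maximal ideal
vanishes modulo the maximal ideal. -/
lemma map_eq_zero_of_roots {O : Subring Ω} [IsLocalRing O] {p : O[X]} {S : Finset O} {d : ℕ}
    (hd : p.natDegree ≤ d) (hS : d ≤ S.card) (hroot : ∀ a ∈ S, p.eval a = 0)
    (hc : p.coeff d ∈ maximalIdeal O) : p.map (residue O) = 0 := by
  classical
  by_cases hlt : d < S.card
  · rw [eq_zero_of_natDegree_lt_card_of_eval_eq_zero' p S hroot (hd.trans_lt hlt),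
      Polynomial.map_zero]
  have hcard : S.card = d := le_antisymm (not_lt.1 hlt) hS
  have hp : p = C (p.coeff d) * ∏ a ∈ S, (X - C a) := by
    have hm : (∏ a ∈ S, (X - C a)).Monic := monic_prod_of_monic _ _ fun a _ => monic_X_sub_C a
    have hdeg : (∏ a ∈ S, (X - C a)).natDegree = d := by
      rw [natDegree_prod_of_monic _ _ fun a _ => monic_X_sub_C a]; simp [hcard]
    rw [← sub_eq_zero]
    set r := p - C (p.coeff d) * ∏ a ∈ S, (X - C a)
    by_contra hr
    have hr1 : r.natDegree ≤ d := (natDegree_sub_le _ _).trans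
      (max_le hd ((natDegree_C_mul_le _ _).trans hdeg.le))
    have hr2 : r.coeff d = 0 := by
      simp only [r, coeff_sub, coeff_C_mul]
      rw [← hdeg, hm.coeff_natDegree, hdeg, mul_one, sub_self]
    have hlt' : r.natDegree < d := lt_of_le_of_ne hr1 fun e =>
      hr (leadingCoeff_eq_zero.1 (by rw [leadingCoeff, e, hr2]))
    refine hr (eq_zero_of_natDegree_lt_card_of_eval_eq_zero' r S (fun a ha => ?_) (hcard ▸ hlt'))
    simp [r, hroot a ha, eval_prod, Finset.prod_eq_zero ha]
  rw [hp, Polynomial.map_mul, map_C, (residue_eq_zero_iff _).2 hc, map_zero, zero_mul]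

variable {T}

/-- Some nonzero point of order `q` reduces to the origin. -/
theorem exists_inf {F : GoodFibre b c} (hT : T.IsOver F) : ∃ v, v ≠ 0 ∧ F.Inf (T.qTors v) := by
  classical
  have : Fact T.q.Prime := ⟨T.hq⟩
  have := F.isElliptic
  by_contra! hcon
  have hfin : ∀ v, v ≠ 0 → ∃ x y : F.O, ∃ h : (tateCurve b c).toAffine.Nonsingular (x : Ω) (y : Ω),
      T.qTors v = Affine.Point.some _ _ h := by
    intro v hv
    obtain ⟨x, y, h, e, hx, hy⟩ := (F.fin_or_inf T.hq.ne_zero (T.nsmul_qTors v)
      ((map_ne_zero_iff _ T.qTors_injective).2 hv)).resolve_right (hcon v hv)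
    exact ⟨⟨x, hx⟩, ⟨y, hy⟩, h, e⟩
  choose xv yv hv ev using hfin
  set V := (Finset.univ : Finset (Fin 2 → ZMod T.q)).erase 0 with hV
  have hVcard : V.card = T.q ^ 2 - 1 := by
    rw [hV, Finset.card_erase_of_mem (Finset.mem_univ _), Finset.card_univ]; simp
  set g : {v // v ∈ V} → F.O := fun v => xv v.1 (Finset.ne_of_mem_erase v.2) with hg
  set S := V.attach.image g with hS
  have hsub : ∀ v w, g v = g w → w.1 = v.1 ∨ w.1 = -v.1 := by
    intro v w h
    have hx := congrArg (fun a : F.O => (a : Ω)) h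
    rcases (Affine.Point.X_eq_iff (h₁ := hv v.1 (Finset.ne_of_mem_erase v.2))
      (h₂ := hv w.1 (Finset.ne_of_mem_erase w.2))).1 hx with e | e
    · exact Or.inl (T.qTors_injective (by rw [ev, ev]; exact e.symm))
    · exact Or.inr (T.qTors_injective (by
        rw [map_neg, ev _ (Finset.ne_of_mem_erase w.2), ev _ (Finset.ne_of_mem_erase v.2), e,
          neg_neg]))
  have hroot : ∀ a ∈ S, (F.W.ΨSq T.q).eval a = 0 := by
    intro a ha
    obtain ⟨v, -, rfl⟩ := Finset.mem_image.1 ha
    have h0 := T.nsmul_qTors v.1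
    rw [ev v.1 (Finset.ne_of_mem_erase v.2), EC.Torsion.nsmul_some_eq_zero_iff] at h0
    apply Subtype.val_injective
    change algebraMap F.O Ω ((F.W.ΨSq T.q).eval (g v)) = 0
    rw [← eval₂_at_apply, ← eval_map, ← WeierstrassCurve.map_ΨSq, F.map_W]
    exact h0
  have hqm : (T.q : F.O) ∈ maximalIdeal F.O := by
    obtain ⟨h, hm⟩ := hT.1
    have e : (T.q : F.O) = ⟨(T.q : Ω), h⟩ := Subtype.ext (map_natCast F.O.subtype T.q)
    rw [e]; exact hm
  apply map_ΨSq_ne_zero F.W T.hq.ne_zero
  rcases T.hq.eq_two_or_odd' with h2 | hodd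
  · -- `q = 2`
    have hinj : Function.Injective g := by
      intro v w h
      have : w.1 = v.1 := (hsub v w h).elim id fun e => e.trans (by
        funext i
        have key : ∀ (q : ℕ), q = 2 → ∀ z : ZMod q, -z = z := by
          rintro _ rfl z; exact ZMod.neg_eq_self_mod_two z
        exact key _ h2 _)
      exact Subtype.ext this.symm
    have hroot' : ∀ a ∈ S, F.W.Ψ₂Sq.eval a = 0 := fun a ha => by
      have := hroot a ha
      rwa [show (T.q : ℤ) = 2 by exact_mod_cast h2, WeierstrassCurve.ΨSq_two] at this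
    rw [show (T.q : ℤ) = 2 by exact_mod_cast h2, WeierstrassCurve.ΨSq_two]
    refine map_eq_zero_of_roots (S := S) (d := 3) F.W.natDegree_Ψ₂Sq_le ?_ hroot' ?_
    · rw [hS, Finset.card_image_of_injective _ hinj, Finset.card_attach, hVcard, h2]
      norm_num
    · rw [WeierstrassCurve.coeff_Ψ₂Sq, show (4 : F.O) = (2 : ℕ) * (2 : ℕ) by norm_num]
      exact Ideal.mul_mem_left _ _ (by simpa [h2] using hqm)
  have hpre : (F.W.preΨ' T.q).map (residue F.O) = 0 := by
    have hne : ¬ Even T.q := Nat.not_even_iff_odd.2 hodd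
    refine map_eq_zero_of_roots (S := S) (d := (T.q ^ 2 - 1) / 2) ?_ ?_ ?_ ?_
    · simpa [hne] using F.W.natDegree_preΨ'_le T.q
    · have : V.card ≤ 2 * S.card := by
        rw [← Finset.card_attach (s := V)]
        refine Finset.card_le_mul_card_image _ 2 fun a ha => ?_
        obtain ⟨v, -, rfl⟩ := Finset.mem_image.1 ha
        have hnv : -v.1 ∈ V :=
          Finset.mem_erase.2 ⟨neg_ne_zero.2 (Finset.ne_of_mem_erase v.2), Finset.mem_univ _⟩
        refine le_trans (Finset.card_le_card (t := {v, ⟨-v.1, hnv⟩}) ?_) Finset.card_le_two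
        intro w hw
        rw [Finset.mem_filter] at hw
        rcases hsub v w hw.2.symm with e | e
        · simp [Subtype.ext e]
        · simp [show w = ⟨-v.1, hnv⟩ from Subtype.ext e]
      rw [hVcard] at this
      omega
    · intro a ha
      have := hroot a ha
      rw [WeierstrassCurve.ΨSq_ofNat, if_neg hne, mul_one, eval_pow] at this
      exact eq_zero_of_pow_eq_zero this
    · have := F.W.coeff_preΨ' T.q
      simp only [hne, if_false] at this
      rw [this]
      simpa using hqm
  rw [WeierstrassCurve.ΨSq_ofNat, Polynomial.map_mul, Polynomial.map_pow, hpre]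
  simp

end TorsFrame

end Fermat.Agent.Carayol
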