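import Fermat.Agent.Carayol.Constancy
import Mathlib.RingTheory.Ideal.KrullsHeightTheorem
import Mathlib.RingTheory.UniqueFactorizationDomain.Basic
import Mathlib.RingTheory.Polynomial.RationalRoot

/-!
# The local ring at a closed point of the special fibre is factorial

The localised subring is a two dimensional local domain with two generated maximal ideal, hence
factorial, hence equal to the integrally closed local ring of the point.
-/

set_option autoImplicit false

namespace Fermat.Agent.Carayol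

open WeierstrassCurve IsLocalRing

variable {Ω : Type*} [Field Ω] [DecidableEq Ω] {b c : Ω}

/-- The coordinates of a sum lie in any subfield containing those of the summands. -/
lemma coordSet_add_subset {S : Subfield Ω} (hb : b ∈ S) (hc : c ∈ S)
    {P Q : (tateCurve b c).toAffine.Point} (hP : coordSet P ⊆ S) (hQ : coordSet Q ⊆ S) :
    coordSet (P + Q) ⊆ S := by
  rcases P with _ | ⟨x, y, h⟩
  · rwa [← Affine.Point.zero_def, zero_add]
  rcases Q with _ | ⟨x', y', h'⟩
  · rwa [← Affine.Point.zero_def, add_zero]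
  have hx : x ∈ S := hP (Or.inl rfl)
  have hy : y ∈ S := hP (Or.inr rfl)
  have hx' : x' ∈ S := hQ (Or.inl rfl)
  have hy' : y' ∈ S := hQ (Or.inr rfl)
  by_cases hxy : x = x' ∧ y = (tateCurve b c).toAffine.negY x' y'
  · rw [Affine.Point.add_of_Y_eq hxy.1 hxy.2]
    exact Set.empty_subset _
  rw [Affine.Point.add_some hxy]
  have hl : (tateCurve b c).toAffine.slope x x' y y' ∈ S := by
    have n2 : (2 : Ω) ∈ S := ofNat_mem S 2
    have n3 : (3 : Ω) ∈ S := ofNat_mem S 3
    have h1 : 1 - c ∈ S := sub_mem (one_mem S) hc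
    by_cases hxx : x = x'
    · rw [Affine.slope_of_Y_ne hxx fun h => hxy ⟨hxx, h⟩]
      simp only [Affine.negY, tateCurve]
      exact div_mem (sub_mem (add_mem (add_mem (mul_mem n3 (pow_mem hx 2))
        (mul_mem (mul_mem n2 (neg_mem hb)) hx)) (zero_mem S)) (mul_mem h1 hy))
        (sub_mem hy (sub_mem (sub_mem (neg_mem hy) (mul_mem h1 hx)) (neg_mem hb)))
    · rw [Affine.slope_of_X_ne hxx]
      exact div_mem (sub_mem hy hy') (sub_mem hx hx')
  have hX : (tateCurve b c).toAffine.addX x x' ((tateCurve b c).toAffine.slope x x' y y') ∈ S := by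
    simp only [Affine.addX]
    exact sub_mem (sub_mem (sub_mem (add_mem (pow_mem hl 2) (mul_mem (sub_mem (one_mem S) hc) hl))
      (neg_mem hb)) hx) hx'
  rintro _ (rfl | rfl)
  · exact hX
  · simp only [Affine.addY, Affine.negAddY, Affine.negY]
    exact sub_mem (sub_mem (neg_mem (add_mem (mul_mem hl (sub_mem hX hx)) hy))
      (mul_mem (sub_mem (one_mem S) hc) hX)) (neg_mem hb)

omit [DecidableEq Ω] in
lemma coordSet_neg_subset {S : Subfield Ω} (hb : b ∈ S) (hc : c ∈ S)
    {P : (tateCurve b c).toAffine.Point} (hP : coordSet P ⊆ S) : coordSet (-P) ⊆ S := by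
  rcases P with _ | ⟨x, y, h⟩
  · exact hP
  rw [Affine.Point.neg_some]
  rintro _ (rfl | rfl)
  · exact hP (Or.inl rfl)
  · exact sub_mem (sub_mem (neg_mem (hP (Or.inr rfl)))
      (mul_mem (sub_mem (one_mem S) hc) (hP (Or.inl rfl)))) (neg_mem hb)

variable {T : TorsFrame b c} {F : GoodFibre b c} {W0 : Subring Ω} {j : Ω}

namespace KerData

variable (D : KerData T F W0 j)

lemma Δinv_mem_A : (tateCurve b c).Δ⁻¹ ∈ D.A :=
  Subring.subset_closure (Or.inr (Or.inl (by simp)))

lemma j_mem_A : j ∈ D.A := by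
  have hb : b ∈ D.A := Subring.subset_closure (Or.inr (Or.inl (by simp)))
  have hc : c ∈ D.A := Subring.subset_closure (Or.inr (Or.inl (by simp)))
  have h4 : (tateCurve b c).c₄ ∈ D.A := by
    rw [show (tateCurve b c).c₄ = (((tateCurve (⟨b, hb⟩ : D.A) ⟨c, hc⟩).c₄ : D.A) : Ω) by
      rw [← D.A.coe_subtype, ← WeierstrassCurve.map_c₄, tateCurve_map]; rfl]
    exact Subtype.coe_prop _
  have hΔ : (tateCurve b c).Δ ≠ 0 :=
    (inv_mem_of_not_inMax (Over.Δ_eq (F := F) ▸ F.W.Δ.2) Over.not_inMax_Δ).1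
  have e : (tateCurve b c).c₄ ^ 3 * (tateCurve b c).Δ⁻¹ = j := by
    rw [D.ov.j_eq, mul_assoc, mul_inv_cancel₀ hΔ, mul_one]
  exact (congrArg (fun z => z ∈ D.A) e).mp (mul_mem (pow_mem h4 3) D.Δinv_mem_A)

lemma closure_le_A : Subring.closure ((W0 : Set Ω) ∪ {j}) ≤ D.A :=
  Subring.closure_le.2 (Set.union_subset (fun _ hw => Subring.subset_closure (Or.inl hw))
    (Set.singleton_subset_iff.2 D.j_mem_A))

/-- Every element of `Ω` is a quotient of two elements of the ring. -/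
lemma exists_div_eq (x : Ω) : ∃ a ∈ D.A, ∃ d ∈ D.A, a / d = x := by
  have hS : Subfield.closure (D.A : Set Ω) = ⊤ := by
    set S := Subfield.closure (D.A : Set Ω)
    have hA : ∀ z ∈ D.A, z ∈ S := fun z hz => Subfield.subset_closure hz
    have hb : b ∈ S := hA _ (Subring.subset_closure (Or.inr (Or.inl (by simp))))
    have hc : c ∈ S := hA _ (Subring.subset_closure (Or.inr (Or.inl (by simp))))
    have hm : ∀ P ∈ T.mixed, coordSet P ⊆ S := fun P hP z hz =>
      hA z (Over.mem_genRing_of_coord D.v0 hP hz)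
    refine D.ov.gen S (fun w hw => hA w (Subring.subset_closure (Or.inl hw)))
      (hA j D.j_mem_A) ?_
    rintro P (hP | ⟨v, rfl⟩)
    · by_cases h0 : P = 0
      · subst h0; exact Set.empty_subset _
      · exact hm P ⟨P, 0, hP, h0, by rw [map_zero, add_zero]⟩
    · have hR : T.R + T.qTors v ∈ T.mixed :=
        ⟨T.R, v, T.nR, by simpa using T.smul_R 1 (by simp), rfl⟩
      have hR' : T.R ∈ T.mixed :=
        ⟨T.R, 0, T.nR, by simpa using T.smul_R 1 (by simp), by rw [map_zero, add_zero]⟩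
      rw [show T.qTors v = (T.R + T.qTors v) + -T.R by abel]
      exact coordSet_add_subset hb hc (hm _ hR) (coordSet_neg_subset hb hc (hm _ hR'))
  have hx : x ∈ Subfield.closure (D.A : Set Ω) := hS ▸ Subfield.mem_top x
  rw [Subfield.mem_closure_iff] at hx
  obtain ⟨y, hy, z, hz, e⟩ := hx
  rw [Subring.closure_eq] at hy hz
  exact ⟨y, hy, z, hz, e⟩

instance : IsFractionRing D.B Ω := by
  have : FaithfulSMul D.B Ω := (faithfulSMul_iff_algebraMap_injective _ _).2 Subtype.val_injective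
  refine IsFractionRing.of_field D.B Ω fun z => ?_
  obtain ⟨a, ha, d, hd, e⟩ := D.exists_div_eq z
  exact ⟨⟨a, le_locRing _ _ ha⟩, ⟨d, le_locRing _ _ hd⟩, e.symm⟩

instance : IsNoetherianRing D.B :=
  haveI := D.ov.isNoetherianRing_genRing D.v0
  inferInstanceAs (IsNoetherianRing (locRing D.A D.A_le))

variable [Fact T.q.Prime]

/-- The maximal ideal is generated by two elements. -/
theorem exists_maximalIdeal_eq :
    ∃ π : D.B, maximalIdeal D.B = Ideal.span {⟨D.s, D.s_mem⟩, π} := by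
  obtain ⟨w0, hw⟩ := TorsFrame.exists_complement D.hv0
  have hm : T.R + T.qTors w0 ∈ T.mixed :=
    ⟨T.R, w0, T.nR, by simpa using T.smul_R 1 (by simp), rfl⟩
  obtain ⟨x, y, h, e, -, -⟩ := D.ov.fin_mixed hm
  have hxB := (D.coord_mem_B (h := h) (e ▸ hm)).1
  obtain ⟨w, hwW, hwm⟩ := D.res_B ⟨x, hxB⟩
  set π : D.B := ⟨x - w, hwm.mem⟩
  have hπ : π ∈ maximalIdeal D.B := hwm.2
  set J := D.idealJ π
  have hV : ∃ x y, ∃ h : (tateCurve b c).toAffine.Nonsingular x y,
      T.R + T.qTors w0 = .some x y h ∧ Cst W0 J x :=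
    ⟨x, y, h, e, hxB, w, hwW, D.W0_le_B hwW,
      Ideal.mem_sup_left (Ideal.subset_span (Or.inr rfl))⟩
  obtain ⟨hb, hc, hmix⟩ := cPt_mixed hπ hw hV
  have hone : Cst W0 J 1 := cst_of_mem W0.one_mem (one_mem _)
  let C : Subring Ω :=
    { carrier := {z | Cst W0 J z}
      one_mem' := hone
      mul_mem' := fun ha hb => ha.mul hb
      zero_mem' := cst_of_mem W0.zero_mem (zero_mem _)
      add_mem' := fun ha hb => ha.add hb
      neg_mem' := fun ha => ha.neg }
  have hs : (⟨D.s, D.s_mem⟩ : D.B) ∈ J := s_mem_idealJ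
  have hzero : ∀ (z : Ω) (hz : z ∈ D.B), (⟨z, hz⟩ : D.B) ∈ J → z ∈ C := fun z hz hzJ =>
    (cst_of_mem W0.zero_mem (zero_mem _) : Cst W0 J 0).congr hz (by
      rw [show (⟨(0 : Ω), _⟩ : D.B) = 0 from rfl, sub_zero]; exact hzJ)
  have hA : D.A ≤ C := by
    refine Subring.closure_le.2 (Set.union_subset
      (fun z hz => cst_of_mem hz (D.W0_le_B hz)) ?_)
    rintro z ((rfl | rfl | rfl | rfl | rfl) | hz)
    · exact hb
    · exact hc
    · have hbC : b ∈ C := hb
      have hcC : c ∈ C := hc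
      have hΔ : (tateCurve b c).Δ ∈ C := by
        rw [show (tateCurve b c).Δ = (((tateCurve (⟨b, hbC⟩ : C) ⟨c, hcC⟩).Δ : C) : Ω) by
          rw [← C.coe_subtype, ← WeierstrassCurve.map_Δ, tateCurve_map]; rfl]
        exact Subtype.coe_prop _
      exact cst_inv hπ hΔ fun h => Over.not_inMax_Δ (D.inMax_B.1 h).2
    · exact hzero _ D.s_mem hs
    · obtain ⟨xP, yP, hP, eP, h0, h0', hsM, htM, es⟩ := D.kerPoint
      rw [eP, tPar_some]
      refine hzero _ htM.mem ?_
      have eq := (Affine.equation_iff _ _).1 hP.left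
      simp only [tateCurve] at eq
      set s' : D.B := ⟨xP / yP, hsM.mem⟩
      set t' : D.B := ⟨1 / yP, htM.mem⟩
      set u : D.B := 1 + (1 - ⟨c, D.c_mem_B⟩) * s' + ⟨b, D.b_mem_B⟩ * s' ^ 2
      have hsJ : s' ∈ J := by
        rw [show s' = ⟨D.s, D.s_mem⟩ from Subtype.ext es.symm]; exact hs
      have hu : IsUnit u := by
        rw [show u = 1 + ((1 - ⟨c, D.c_mem_B⟩) + ⟨b, D.b_mem_B⟩ * s') * s' by ring]
        exact isUnit_one_add (Ideal.mul_mem_left _ _ hsM.2)
      have heq : t' * u = s' ^ 3 + ⟨b, D.b_mem_B⟩ * t' ^ 2 := by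
        apply Subtype.ext
        simp only [u, s', t']
        push_cast
        field_simp
        linear_combination eq
      refine (Ideal.mul_unit_mem_iff_mem J hu).1 ?_
      rw [heq]
      exact J.add_mem (Ideal.pow_mem_of_mem J hsJ 3 (by omega))
        (Ideal.mul_mem_left _ _ (Ideal.mem_sup_right (Ideal.pow_mem_pow htM.2 2)))
    · simp only [Set.mem_iUnion] at hz
      obtain ⟨P, hP, hz⟩ := hz
      obtain ⟨x', y', h', rfl, hx', hy'⟩ := hmix P hP
      rcases hz with rfl | rfl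
      exacts [hx', hy']
  refine ⟨π, le_antisymm ?_ (Ideal.span_le.2 (Set.insert_subset (inMax_coe.1 D.inMax_s)
    (Set.singleton_subset_iff.2 hπ)))⟩
  refine Submodule.le_of_le_smul_of_le_jacobson_bot (I := maximalIdeal D.B)
    (IsNoetherian.noetherian _) (jacobson_eq_maximalIdeal _ bot_ne_top).ge ?_
  intro z hz
  rw [smul_eq_mul, ← pow_two]
  change z ∈ J
  obtain ⟨a, ha, d, hd, hdm, eq⟩ := (mem_locRing _ _).1 z.2
  have hd' : ¬ InMax D.B d := fun h => hdm (D.inMax_B.1 h).2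
  have hzC : Cst W0 J (z : Ω) := by
    obtain ⟨hd0, -, -⟩ := inv_mem_of_not_inMax (D.A_le hd) hdm
    rw [show (z : Ω) = a * d⁻¹ by rw [← eq, mul_assoc, mul_inv_cancel₀ hd0, mul_one]]
    exact (hA ha).mul (cst_inv hπ (hA hd) hd')
  obtain ⟨hzB, v, hv, hvB, hzv⟩ := hzC
  have hvM : InMax D.B v := ⟨hvB, by
    have := (maximalIdeal D.B).sub_mem hz (idealJ_le hπ hzv)
    rwa [show z - ((⟨(z : Ω), hzB⟩ : D.B) - ⟨v, hvB⟩) = ⟨v, hvB⟩ from sub_sub_cancel z _] at this⟩
  obtain ⟨v', hv', rfl⟩ := D.ov.max v hv (D.inMax_B.1 hvM).2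
  convert J.add_mem hzv
    (J.mul_mem_right (⟨v', D.W0_le_B hv'⟩ : D.B) (q_mem_idealJ (D := D) (π := π))) using 1
  apply Subtype.ext
  push_cast
  ring

/-- The local ring is factorial. -/
theorem ufd : UniqueFactorizationMonoid D.B := by
  obtain ⟨π, hπ⟩ := D.exists_maximalIdeal_eq
  have hs : (⟨D.s, D.s_mem⟩ : D.B) ≠ 0 := fun h => D.s_ne_zero (congrArg Subtype.val h)
  have hs' : (⟨D.s, D.s_mem⟩ : D.B) ∈ maximalIdeal D.B := inMax_coe.1 D.inMax_s
  obtain ⟨P, hP, hPle⟩ := Ideal.exists_minimalPrimes_le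
    ((Ideal.span_singleton_le_iff_mem _).2 hs' : Ideal.span {(⟨D.s, D.s_mem⟩ : D.B)} ≤ _)
  have : P.IsPrime := hP.1.1
  refine ufd_of_maximalIdeal_eq_pair hs hπ P (hP.1.2 (Ideal.mem_span_singleton_self _)) ?_
  rintro rfl
  have h1 : (maximalIdeal D.B).height ≤ 1 :=
    Ideal.height_le_one_of_isPrincipal_of_mem_minimalPrimes _ _ hP
  obtain ⟨𝔭, y, hp, hq, hym, hyp, hy⟩ := D.ov.vert
  set 𝔮 : Ideal D.B := 𝔭.comap (Subring.inclusion D.B_le)
  have : 𝔮.IsPrime := Ideal.IsPrime.comap _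
  obtain ⟨hqO, -⟩ := D.ov.isOver.1
  have hq0 : (T.q : D.B) ∈ 𝔮 := by
    show Subring.inclusion D.B_le (T.q : D.B) ∈ 𝔭
    rw [show Subring.inclusion D.B_le (T.q : D.B) = ⟨(T.q : Ω), hqO⟩ from
      Subtype.ext (map_natCast D.B.subtype T.q)]
    exact hq hqO
  have hlt1 : (⊥ : Ideal D.B) < 𝔮 := bot_lt_iff_ne_bot.2 fun h => T.hchar (by
    rw [h, Ideal.mem_bot] at hq0
    have := congrArg (fun x : D.B => (x : Ω)) hq0
    rwa [show (((T.q : D.B)) : Ω) = (T.q : Ω) from map_natCast D.B.subtype T.q] at this)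
  have hyB : (y : Ω) ∈ D.B := le_locRing _ _ (D.closure_le_A hy)
  have hlt2 : 𝔮 < maximalIdeal D.B := by
    refine lt_of_le_of_ne (le_maximalIdeal (Ideal.IsPrime.ne_top ‹_›)) fun h => hyp ?_
    have : (⟨(y : Ω), hyB⟩ : D.B) ∈ maximalIdeal D.B :=
      (inMax_iff hyB).1 (D.inMax_B.2 ⟨hyB, inMax_coe.2 hym⟩)
    rw [← h] at this
    exact this
  have : (⊥ : Ideal D.B).IsPrime := Ideal.isPrime_bot
  have a1 := Ideal.height_strict_mono_of_isPrime_of_isPrime hlt1
  have a2 := (Ideal.height_strict_mono_of_isPrime_of_isPrime hlt2).trans_le h1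
  rw [Order.lt_one_iff] at a2
  rw [a2] at a1
  exact not_lt_zero a1

/-- The local ring of the point is the localised subring. -/
theorem eq_O : D.B = F.O := by
  have := D.ufd
  have : IsIntegrallyClosed D.B := inferInstance
  refine le_antisymm D.B_le fun a ha => ?_
  obtain ⟨x, y, hx, hy, hyO, hym, e⟩ := D.ov.int a ha
  have hint : ∀ z : Ω, IsIntegral (Subring.closure ((W0 : Set Ω) ∪ {j})) z → z ∈ D.B := by
    intro z hz
    have hle : Subring.closure ((W0 : Set Ω) ∪ {j}) ≤ D.B :=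
      D.closure_le_A.trans (le_locRing _ _)
    have : IsIntegral D.B z := by
      obtain ⟨p, hp, hpz⟩ := hz
      refine ⟨p.map (Subring.inclusion hle), hp.map _, ?_⟩
      rwa [Polynomial.eval₂_map]
    obtain ⟨w, rfl⟩ := IsIntegrallyClosed.isIntegral_iff.1 this
    exact w.2
  have hyB := hint y hy
  obtain ⟨hy0, hyi, -⟩ := inv_mem_of_not_inMax hyB fun h => hym (D.inMax_B.1 h).2
  rw [show a = x * y⁻¹ by rw [← e, mul_assoc, mul_inv_cancel₀ hy0, mul_one]]
  exact mul_mem (hint x hx) hyi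

/-- Membership in the local ring of the point. -/
theorem mem_O_iff {z : Ω} :
    z ∈ F.O ↔ ∃ a ∈ D.A, ∃ d ∈ D.A, ¬ InMax F.O d ∧ z * d = a :=
  (SetLike.ext_iff.1 D.eq_O z).symm.trans (mem_locRing D.A D.A_le)

/-- The local ring of the point is factorial. -/
theorem ufd_O (D : KerData T F W0 j) : UniqueFactorizationMonoid F.O :=
  haveI := D.ufd
  (RingEquiv.subringCongr D.eq_O).toMulEquiv.uniqueFactorizationMonoid inferInstance

end KerData

end Fermat.Agent.Carayol
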