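import Fermat.Agent.Carayol.Inertial
import Fermat.Agent.FF.FixedRep
import Fermat.Agent.JacTorsion.Descent
import Fermat.Agent.Mazur.Eisenstein.Cusps
import Fermat.Agent.RT.Mazur.FixedBasis

/-!
# Rationality over a fixed field

A class fixed by a group `H` of automorphisms of the constants (such as an inertia group) is the
class of a fixed divisor, whose functions can be chosen with fixed coefficients and leading
coefficient one; a fixed divisor has everywhere local equations with fixed coefficients.
-/

set_option autoImplicit false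

noncomputable section

namespace Fermat.Agent.Carayol

open ModularCurve AlgebraicCurve

open Fermat.Agent.Arith

variable (H : Subgroup (QBar ≃ₐ[ℚ] QBar)) (N : ℕ)

/-- Series with coefficients fixed by `H`. -/
def CoeffFixed (x : LaurentSeries QBar) : Prop :=
  ∀ σ ∈ H, coeffMap (σ : QBar →+* QBar) x = x

/-- The field of level `N` over the fixed field. -/
def ratField : IntermediateField (IntermediateField.fixedField H) (LaurentSeries QBar) :=
  IntermediateField.adjoin _ (divisorExpansionsC QBar N)

variable {H N}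

theorem CoeffFixed.coeff_mem {x : LaurentSeries QBar} (h : CoeffFixed H x) (i : ℤ) :
    x.coeff i ∈ IntermediateField.fixedField H :=
  (IntermediateField.mem_fixedField_iff H _).mpr fun σ hσ => congrArg (fun z => HahnSeries.coeff z i) (h σ hσ)

theorem mem_bar_of_mem_ratField [NeZero N] {x : LaurentSeries QBar} (hx : x ∈ ratField H N) :
    x ∈ modularFunctionFieldBar N := by
  induction hx using IntermediateField.adjoin_induction with
  | mem z hz =>
    rw [modularFunctionFieldBar, ModFun.laurentBaseChange_eq_fullC]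
    exact IntermediateField.subset_adjoin _ _ hz
  | algebraMap c =>
    rw [IsScalarTower.algebraMap_apply (IntermediateField.fixedField H) QBar (LaurentSeries QBar)]
    exact (modularFunctionFieldBar N).algebraMap_mem _
  | add a b _ _ ha hb => exact add_mem ha hb
  | inv a _ ha => exact inv_mem ha
  | mul a b _ _ ha hb => exact mul_mem ha hb

/-- An element of the field over `ℚ̄` with fixed coefficients is rational. -/
theorem mem_ratField [NeZero N] {x : LaurentSeries QBar} (hx : x ∈ modularFunctionFieldBar N)
    (hf : CoeffFixed H x) : x ∈ ratField H N := by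
  let ι : IntermediateField.fixedField H →+* QBar := (IntermediateField.fixedField H).val.toRingHom
  let y : LaurentSeries (IntermediateField.fixedField H) :=
    { coeff := fun i => ⟨x.coeff i, hf.coeff_mem i⟩
      isPWO_support' := x.isPWO_support.mono fun i hi h => hi (Subtype.ext h) }
  have hy : coeffMap ι y = x := HahnSeries.ext (funext fun i => rfl)
  rw [modularFunctionFieldBar, ← JacTorsion.cExt_laurentBaseChange (ι := ι), ← hy] at hx
  have hmem := JacTorsion.mem_of_coeffMap_mem_cExt hx
  rw [ModFun.laurentBaseChange_eq_fullC] at hmem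
  rw [← hy]
  clear hx hy
  clear_value y
  clear hf
  induction hmem using IntermediateField.adjoin_induction with
  | mem z hz =>
    obtain ⟨d, hd, hdN, rfl⟩ := hz
    have := hd
    rw [coeffMap_qExpand, coeffMap_jqModC]
    exact IntermediateField.subset_adjoin _ _ ⟨d, hd, hdN, rfl⟩
  | algebraMap c =>
    rw [algebraMap_laurentSeries_eq_single, coeffMap_single,
      ← algebraMap_laurentSeries_eq_single]
    have := (ratField H N).algebraMap_mem c
    rwa [IsScalarTower.algebraMap_apply (IntermediateField.fixedField H) QBar (LaurentSeries QBar)] at this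
  | add a b _ _ ha hb => rw [map_add]; exact add_mem ha hb
  | inv a _ ha => rw [map_inv₀]; exact inv_mem ha
  | mul a b _ _ ha hb => rw [map_mul]; exact mul_mem ha hb

section Bar

variable [NeZero N]

local notation "FN" => modularFunctionFieldBar N

local notation "gal" σ => arithmeticGalois (L := QBar) (modularFunctionFieldFull N) σ

omit [NeZero N] in
theorem coeffFixed_iff {x : FN} :
    CoeffFixed H (x : LaurentSeries QBar) ↔ ∀ σ ∈ H, (gal σ) • x = x :=
  ⟨fun h σ hσ => Subtype.ext (h σ hσ), fun h σ hσ => congrArg Subtype.val (h σ hσ)⟩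

/-- A class fixed by the group contains a fixed divisor. -/
theorem exists_fixed_rep {x : JZero N} (hx : ∀ σ ∈ H, σ • x = x) :
    ∃ D : Divisor.degZero (K := QBar) (F := FN), Pic0.mk D = x ∧
      ∀ σ ∈ H, (gal σ) • (D : Divisor QBar FN) = D := by
  obtain ⟨D, hD, hfix⟩ := FF.exists_fixed_divisor
    (S := (fun σ => gal σ) '' (H : Set (QBar ≃ₐ[ℚ] QBar))) (O := Mazur.Eisenstein.placeInf N)
    (by rintro _ ⟨σ, -, rfl⟩; exact Mazur.Eisenstein.galois_smul_placeInf N σ)
    (x := x) (by rintro _ ⟨σ, hσ, rfl⟩; exact hx σ hσ)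
  exact ⟨D, hD, fun σ hσ => hfix _ ⟨σ, hσ, rfl⟩⟩

/-- An element with trivial divisor is a constant. -/
theorem exists_eq_mul_of_ord {x y : FN} (hx : x ≠ 0) (hy : y ≠ 0)
    (h : ∀ P : Place QBar FN, P.ord x = P.ord y) : ∃ c : QBar, x = algebraMap QBar FN c * y := by
  obtain ⟨c, hc⟩ := FF.eq_algebraMap_of_ord_nonneg (K := QBar) (f := x / y) fun P => by
    rw [FF.ord_div P hx hy, h P, sub_self]
  exact ⟨c, by rw [← hc, div_mul_cancel₀ _ hy]⟩

omit [NeZero N] in
theorem leadingCoeff_smul (σ : QBar ≃ₐ[ℚ] QBar) (x : FN) :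
    (((gal σ) • x : FN) : LaurentSeries QBar).leadingCoeff
      = σ (x : LaurentSeries QBar).leadingCoeff := by
  rw [coe_arithmeticGalois_smul, HahnSeries.leadingCoeff_eq, Igusa.order_coeffMap,
    HahnSeries.leadingCoeff_eq, coeffMap_coeff]
  rfl

omit [NeZero N] in
theorem leadingCoeff_algebraMap_mul (c : QBar) (y : FN) :
    ((algebraMap QBar FN c * y : FN) : LaurentSeries QBar).leadingCoeff
      = c * (y : LaurentSeries QBar).leadingCoeff := by
  show (algebraMap QBar (LaurentSeries QBar) c * (y : LaurentSeries QBar)).leadingCoeff = _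
  rw [HahnSeries.leadingCoeff_mul, algebraMap_laurentSeries_eq_single,
    HahnSeries.leadingCoeff_of_single]

omit [NeZero N] in
/-- Proportional normalised functions are equal. -/
theorem eq_of_leadingCoeff {x y : FN} {c : QBar} (h : x = algebraMap QBar FN c * y) (hy : y ≠ 0)
    (hl : (x : LaurentSeries QBar).leadingCoeff = (y : LaurentSeries QBar).leadingCoeff) :
    x = y := by
  have hy' : (y : LaurentSeries QBar) ≠ 0 := fun e => hy (Subtype.ext e)
  rw [h, leadingCoeff_algebraMap_mul] at hl
  rw [h, mul_eq_right₀ (HahnSeries.leadingCoeff_ne_zero.mpr hy') |>.mp hl, map_one, one_mul]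

/-- A fixed divisor which is principal is the divisor of a function with fixed coefficients. -/
theorem exists_fixed_fun {E : Divisor QBar FN} (hE : E.IsPrincipal)
    (hfix : ∀ σ ∈ H, (gal σ) • E = E) :
    ∃ f : FN, f ≠ 0 ∧ CoeffFixed H (f : LaurentSeries QBar) ∧
      (f : LaurentSeries QBar).leadingCoeff = 1 ∧ ∀ P, E P = P.ord f := by
  obtain ⟨f, hf0, hl, hff, hord⟩ := FF.exists_fixed_fun ((fun σ => gal σ) '' (H : Set (QBar ≃ₐ[ℚ] QBar)))
    (fun y : FN => (y : LaurentSeries QBar).leadingCoeff) leadingCoeff_algebraMap_mul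
    (fun y hy => HahnSeries.leadingCoeff_ne_zero.mpr fun h => hy (Subtype.ext h))
    (by rintro _ ⟨σ, -, rfl⟩ y; exact leadingCoeff_smul σ y)
    hE (by rintro _ ⟨σ, hσ, rfl⟩; exact hfix σ hσ)
  exact ⟨f, hf0, coeffFixed_iff.mpr fun σ hσ => hff _ ⟨σ, hσ, rfl⟩, hl, hord⟩

set_option maxHeartbeats 800000 in
/-- A fixed divisor has a local equation with fixed coefficients at every place. -/
theorem exists_fixed_ord {D : Divisor QBar FN}
    (hfix : ∀ σ ∈ H, (gal σ) • D = D) (P : Place QBar FN) :
    ∃ g : FN, g ≠ 0 ∧ CoeffFixed H (g : LaurentSeries QBar) ∧ P.ord g = - D P := by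
  classical
  set P₀ := Mazur.Eisenstein.placeInf N with hP₀
  rcases eq_or_ne P P₀ with rfl | hP
  · have hj : Genus.jB N ≠ 0 := fun h => by
      have := Mazur.Eisenstein.ord_placeInf_jB N
      rw [h, Place.ord_zero] at this
      omega
    refine ⟨Genus.jB N ^ D P₀, zpow_ne_zero _ hj, coeffFixed_iff.mpr fun σ _ => ?_, ?_⟩
    · show SemilinearAut.toRingAut (gal σ) _ = _
      rw [map_zpow₀]
      congr 1
      exact Subtype.ext (coeffMap_jqModC _)
    · rw [Place.ord_zpow, hP₀, Mazur.Eisenstein.ord_placeInf_jB]; ring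
  obtain ⟨c, hc⟩ := FF.exists_ell_eq (K := QBar) (F := FN)
  set t : ℕ := (c - Divisor.degree D).toNat + (genusFF QBar FN - Divisor.degree D).toNat + 1
    with ht
  set B : Divisor QBar FN := D + Finsupp.single P₀ (t : ℤ) with hB
  set B' : Divisor QBar FN := B - Finsupp.single P 1 with hB'
  have hdeg : Divisor.degree B = Divisor.degree D + t := by
    rw [hB, map_add, Divisor.degree_single, FF.deg_eq_one]; simp
  have hdeg' : Divisor.degree B' = Divisor.degree D + t - 1 := by
    rw [hB', map_sub, hdeg, Divisor.degree_single, FF.deg_eq_one]; simp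
  have h1 := hc B (by rw [hdeg]; omega)
  have h2 := hc B' (by rw [hdeg']; omega)
  set W := riemannRochSpace B
  have hW : (Module.finrank QBar W : ℤ) = FF.ell QBar B := rfl
  have : FiniteDimensional QBar W := FiniteDimensional.of_finrank_pos (by
    have : (0 : ℤ) < Module.finrank QBar W := by rw [hW, h1, hdeg]; omega
    exact_mod_cast this)
  have hBfix : ∀ σ ∈ H, (gal σ) • B = B := fun σ hσ => by
    rw [hB, smul_add, hfix σ hσ, SemilinearAut.smul_single, hP₀, Mazur.Eisenstein.galois_smul_placeInf]
  have hstable : ∀ σ ∈ (H : Set (QBar ≃ₐ[ℚ] QBar)), ∀ x ∈ W,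
      arithmeticRingAut (modularFunctionFieldFull N) σ x ∈ W := by
    intro σ hσ x hx
    rw [mem_riemannRochSpace_iff] at hx ⊢
    intro v
    rcases eq_or_ne x 0 with rfl | hx0
    · exact Or.inl (map_zero _)
    refine Or.inr ?_
    have h3 := (hx ((gal σ)⁻¹ • v)).resolve_left hx0
    rw [← hBfix σ hσ, SemilinearAut.divisor_smul_apply]
    conv_rhs => rw [← smul_inv_smul (gal σ) v]
    exact h3.trans (SemilinearAut.ord_smul _ _ x).ge
  obtain ⟨b, hbW, hbli, hbfix⟩ := RT.Mazur.exists_fixed_basis
    (H : Set (QBar ≃ₐ[ℚ] QBar)) W hstable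
  obtain ⟨i, hi⟩ : ∃ i, b i ∉ riemannRochSpace B' := by
    by_contra! hall
    have : FiniteDimensional QBar (riemannRochSpace B') := by
      refine Submodule.finiteDimensional_of_le (S₂ := W) (FF.riemannRochSpace_mono ?_)
      rw [hB', sub_le_self_iff]
      exact Finsupp.single_nonneg.mpr zero_le_one
    have h4 : Module.finrank QBar W ≤ Module.finrank QBar (riemannRochSpace B') := by
      have h5 : LinearIndependent QBar fun i => (⟨b i, hall i⟩ : riemannRochSpace B') :=
        LinearIndependent.of_comp (riemannRochSpace B').subtype hbli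
      simpa using h5.fintype_card_le_finrank
    have h6 : (Module.finrank QBar W : ℤ) ≤ FF.ell QBar B' := by
      show _ ≤ ((Module.finrank QBar (riemannRochSpace B') : ℕ) : ℤ)
      exact_mod_cast h4
    rw [hW, h1, h2, hdeg, hdeg'] at h6
    omega
  have hbi0 : b i ≠ 0 := fun h => hi (by rw [h]; exact zero_mem _)
  refine ⟨b i, hbi0, coeffFixed_iff.mpr fun σ hσ => hbfix i σ hσ, ?_⟩
  rw [mem_riemannRochSpace_iff] at hi
  push Not at hi
  obtain ⟨v, -, hv⟩ := hi
  have h7 := (mem_riemannRochSpace_iff.mp (hbW i) v).resolve_left hbi0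
  rcases eq_or_ne v P with rfl | hvP
  · simp only [hB', hB, Finsupp.sub_apply, Finsupp.add_apply, Finsupp.single_eq_same,
      Finsupp.single_eq_of_ne hP] at hv h7
    omega
  · simp only [hB', Finsupp.sub_apply, Finsupp.single_eq_of_ne hvP, sub_zero] at hv
    omega

set_option maxHeartbeats 800000 in
/-- A rational function whose divisor is `m` times a fixed divisor has order divisible by `m` at
every valuation trivial on the constants. -/
theorem dvd_log_valuation {m : ℕ} {D : Divisor QBar FN}
    (hfix : ∀ σ ∈ H, (gal σ) • D = D) {f : FN} (hf0 : f ≠ 0)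
    (hord : ∀ P : Place QBar FN, P.ord f = (m : ℤ) * D P)
    (hf : (f : LaurentSeries QBar) ∈ ratField H N) (w : Valuation (ratField H N) (WithZero (Multiplicative ℤ)))
    (hw : ∀ c : IntermediateField.fixedField H, c ≠ 0 → w (algebraMap (IntermediateField.fixedField H) (ratField H N) c) = 1) :
    (m : ℤ) ∣ WithZero.log (w ⟨(f : LaurentSeries QBar), hf⟩) := by
  classical
  let e : ratField H N →+* FN :=
    ((ratField H N).val.toRingHom).codRestrict (modularFunctionFieldBar N).toSubfield
      fun x => mem_bar_of_mem_ratField x.2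
  let r : w.valuationSubring →+* FN := e.comp w.valuationSubring.subtype
  have hr : Function.Injective r := e.injective.comp Subtype.val_injective
  let eR : w.valuationSubring ≃+* r.range :=
    RingEquiv.ofBijective r.rangeRestrict
      ⟨fun a b h => hr (congrArg Subtype.val h), r.rangeRestrict_surjective⟩
  let I : Ideal r.range := (IsLocalRing.maximalIdeal w.valuationSubring).map eR.toRingHom
  have hI : I ≠ ⊤ := by
    intro h
    have h' : (IsLocalRing.maximalIdeal w.valuationSubring) = ⊤ := by
      have := congrArg (Ideal.comap eR.toRingHom) h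
      rwa [show I = (IsLocalRing.maximalIdeal w.valuationSubring).map eR.toRingHom from rfl,
        Ideal.comap_map_of_bijective eR.toRingHom eR.bijective, Ideal.comap_top] at this
    exact Ideal.IsPrime.ne_top' h'
  obtain ⟨V, hRV, hIV⟩ := Ideal.image_subset_nonunits_valuationSubring (A := r.range) I hI
  -- a rational unit of `V` is a unit for `w`
  have hunit : ∀ x : ratField H N, x ≠ 0 → e x ∈ V → e x⁻¹ ∈ V → w x = 1 := by
    intro x hx0 h1 h2
    have key : ∀ y : ratField H N, y ≠ 0 → e y⁻¹ ∈ V → ¬ w y < 1 := by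
      intro y hy0 hy hlt
      have hy' : y ∈ w.valuationSubring := hlt.le
      have hmem : (⟨y, hy'⟩ : w.valuationSubring) ∈ IsLocalRing.maximalIdeal _ := by
        rw [IsLocalRing.mem_maximalIdeal, mem_nonunits_iff]
        intro hu
        obtain ⟨z, hz⟩ := hu.exists_right_inv
        have h3 : w y * w (z : ratField H N) = 1 := by
          rw [← map_mul, ← map_one w]
          exact congrArg w (congrArg Subtype.val hz)
        exact (mul_lt_one_of_nonneg_of_lt_one_left zero_le hlt z.2).ne h3
      have h4 : e y ∈ V.nonunits := hIV ⟨_, Ideal.mem_map_of_mem _ hmem, rfl⟩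
      have h5 : V.valuation (e y) < 1 := (V.mem_nonunits_iff).mp h4
      have h6 : V.valuation (e y⁻¹) ≤ 1 := (V.valuation_le_one_iff _).mpr hy
      rw [map_inv₀, map_inv₀, inv_le_one₀ (zero_lt_iff.mpr (by simpa using hy0))] at h6
      exact absurd h5 h6.not_gt
    refine le_antisymm (not_lt.mp fun hgt => ?_) (not_lt.mp (key x hx0 h2))
    refine key x⁻¹ (inv_ne_zero hx0) (by rwa [inv_inv]) ?_
    rw [map_inv₀]
    exact inv_lt_one_of_one_lt₀ hgt
  have hconst : ∀ a : QBar, algebraMap QBar FN a ∈ V := by
    intro a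
    have hk : ∀ c : IntermediateField.fixedField H, e (algebraMap _ (ratField H N) c) ∈ V := fun c => by
      refine hRV ⟨⟨_, ?_⟩, rfl⟩
      show w (algebraMap (IntermediateField.fixedField H) (ratField H N) c) ≤ 1
      rcases eq_or_ne c 0 with rfl | hc
      · rw [map_zero, map_zero]; exact zero_le
      · exact (hw c hc).le
    let κ : IntermediateField.fixedField H →+* V :=
      (e.comp (algebraMap _ (ratField H N))).codRestrict V.toSubring hk
    have hκ : V.subtype.comp κ = (algebraMap QBar FN).comp (algebraMap (IntermediateField.fixedField H) QBar) :=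
      RingHom.ext fun c => Subtype.ext
        (IsScalarTower.algebraMap_apply (IntermediateField.fixedField H) QBar (LaurentSeries QBar) c)
    have hint : IsIntegral V (algebraMap QBar FN a) := by
      have : Algebra.IsIntegral (IntermediateField.fixedField H) QBar :=
        Algebra.IsIntegral.tower_top (R := ℚ)
      obtain ⟨P, hP, hPa⟩ := Algebra.IsIntegral.isIntegral (R := IntermediateField.fixedField H) a
      refine ⟨P.map κ, hP.map κ, ?_⟩
      rw [Polynomial.eval₂_map,
        show (algebraMap V FN).comp κ = V.subtype.comp κ from rfl, hκ, ← Polynomial.hom_eval₂,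
        hPa, map_zero]
    obtain ⟨y, hy⟩ := IsIntegrallyClosed.isIntegral_iff.mp hint
    exact hy ▸ y.2
  set x : ratField H N := ⟨(f : LaurentSeries QBar), hf⟩ with hx
  have hx0 : x ≠ 0 := fun h => hf0 (ZeroMemClass.coe_eq_zero.mp (by
    simpa [hx] using congrArg (fun z : ratField H N => (z : LaurentSeries QBar)) h))
  have hex : e x = f := Subtype.ext rfl
  by_cases htop : V = ⊤
  · rw [hunit x hx0 (htop ▸ ValuationSubring.mem_top _) (htop ▸ ValuationSubring.mem_top _),
      WithZero.log_one]
    exact dvd_zero _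
  set P : Place QBar FN := FF.placeOfValuationSubring V hconst htop
  obtain ⟨g, hg0, hgf, hgord⟩ := exists_fixed_ord hfix P
  set y : ratField H N := ⟨(g : LaurentSeries QBar), mem_ratField g.2 hgf⟩
  have hey : e y = g := Subtype.ext rfl
  have hy0 : y ≠ 0 := fun h => hg0 (by rw [← hey, h, map_zero])
  have hz0 : x * y ^ m ≠ 0 := mul_ne_zero hx0 (pow_ne_zero _ hy0)
  have hez : P.ord (e (x * y ^ m)) = 0 := by
    rw [map_mul, map_pow, hex, hey, P.ord_mul hf0 (pow_ne_zero _ hg0), FF.ord_pow,
      hord, hgord]
    ring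
  have h1 : w (x * y ^ m) = 1 := hunit _ hz0
    (JacTorsion.mem_of_ord_nonneg P hez.ge)
    (JacTorsion.mem_of_ord_nonneg P (by rw [map_inv₀, P.ord_inv, hez, neg_zero]))
  have hwy : w y ≠ 0 := w.ne_zero_iff.mpr hy0
  have hwx : w x ≠ 0 := w.ne_zero_iff.mpr hx0
  have h2 := congrArg WithZero.log h1
  rw [map_mul, map_pow, WithZero.log_mul hwx (pow_ne_zero _ hwy), WithZero.log_pow,
    WithZero.log_one, nsmul_eq_mul] at h2
  exact ⟨- WithZero.log (w y), by linear_combination h2⟩

end Bar

end Fermat.Agent.Carayol

end
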