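import Fermat.Agent.Carayol.Local
import Fermat.Agent.Carayol.TwoDim
import Mathlib.LinearAlgebra.Matrix.NonsingularInverse

/-!
# The maximal ideal of the local ring is generated by two elements
-/

set_option autoImplicit false

namespace Fermat.Agent.Carayol

open WeierstrassCurve IsLocalRing Polynomial

variable {Ω : Type*} [Field Ω] [DecidableEq Ω] {b c : Ω}
variable {T : TorsFrame b c} {F : GoodFibre b c} {W0 : Subring Ω} {j : Ω}

lemma TorsFrame.exists_complement [Fact T.q.Prime] {v0 : Fin 2 → ZMod T.q} (hv : v0 ≠ 0) :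
    ∃ w0, Function.Bijective fun p : ZMod T.q × ZMod T.q => p.1 • w0 + p.2 • v0 := by
  obtain ⟨w0, hdet⟩ : ∃ w0 : Fin 2 → ZMod T.q, w0 0 * v0 1 - w0 1 * v0 0 ≠ 0 := by
    by_cases h : v0 1 = 0
    · have : v0 0 ≠ 0 := fun h' => hv (by funext i; fin_cases i <;> simp [h, h'])
      exact ⟨![0, 1], by simpa⟩
    · exact ⟨![1, 0], by simpa using h⟩
  refine ⟨w0, (Fintype.bijective_iff_injective_and_card _).2 ⟨fun p p' h => ?_, by simp [sq]⟩⟩
  have h0 := congrFun h 0
  have h1 := congrFun h 1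
  simp only [Pi.add_apply, Pi.smul_apply, smul_eq_mul] at h0 h1
  refine Prod.ext ?_ ?_ <;> refine sub_eq_zero.1 ((mul_eq_zero.1 ?_).resolve_right hdet)
  · linear_combination v0 1 * h0 - v0 0 * h1
  · linear_combination w0 0 * h1 - w0 1 * h0

namespace KerData

variable (D : KerData T F W0 j)

/-- The ideal generated by the parameter, one more element and the square of the maximal
ideal. -/
noncomputable def idealJ (π : D.B) : Ideal D.B :=
  Ideal.span {⟨D.s, D.s_mem⟩, π} ⊔ maximalIdeal D.B ^ 2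

variable {D}

lemma idealJ_le {π : D.B} (hπ : π ∈ maximalIdeal D.B) : D.idealJ π ≤ maximalIdeal D.B :=
  sup_le (Ideal.span_le.2 (Set.insert_subset ((inMax_coe).1 D.inMax_s)
    (Set.singleton_subset_iff.2 hπ))) (Ideal.pow_le_self two_ne_zero)

lemma s_mem_idealJ {π : D.B} : (⟨D.s, D.s_mem⟩ : D.B) ∈ D.idealJ π :=
  Ideal.mem_sup_left (Ideal.subset_span (Or.inl rfl))

lemma q_mem_idealJ [Fact T.q.Prime] {π : D.B} : (T.q : D.B) ∈ D.idealJ π := by
  obtain ⟨β, hβ, e⟩ := D.exists_q_eq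
  rw [show (T.q : D.B) = ⟨D.s, D.s_mem⟩ * ⟨β, hβ⟩ from
    Subtype.ext ((map_natCast D.B.subtype T.q).trans e)]
  exact Ideal.mul_mem_right _ _ s_mem_idealJ

variable (D) in
/-- Both coordinates of a point are congruent to constants. -/
def CPt (π : D.B) (P : (tateCurve b c).toAffine.Point) : Prop :=
  ∃ x y, ∃ h : (tateCurve b c).toAffine.Nonsingular x y, P = .some x y h ∧
    Cst W0 (D.idealJ π) x ∧ Cst W0 (D.idealJ π) y

lemma cst_of_congr_s {π : D.B} {x β : Ω} (hx : Cst W0 (D.idealJ π) x) (hβ : β ∈ D.B) :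
    Cst W0 (D.idealJ π) (x + D.s * β) := by
  refine hx.congr (add_mem hx.mem (mul_mem D.s_mem hβ)) ?_
  convert Ideal.mul_mem_right (⟨β, hβ⟩ : D.B) _ (s_mem_idealJ (π := π)) using 1
  exact Subtype.ext (by push_cast; ring)

lemma CPt.translate {π : D.B} {P : (tateCurve b c).toAffine.Point} (h : D.CPt π P)
    (hP : P ∈ T.mixed) (k : ℕ) : D.CPt π (P + k • T.qTors D.v0) := by
  obtain ⟨x, y, hn, rfl, hx, hy⟩ := h
  obtain ⟨x', y', h', e, β, hβ, γ, hγ, ex, ey⟩ := D.exists_translate hP k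
  refine ⟨x', y', h', e, ?_, by rw [ey]; exact cst_of_congr_s hy hγ⟩
  rw [ex, show x - k * D.s * (2 * y + (1 - c) * x + -b) + D.s ^ 2 * β
    = x + D.s * (-(k : Ω) * (2 * y + (1 - c) * x + -b) + D.s * β) by ring]
  exact cst_of_congr_s hx (add_mem (mul_mem (neg_mem (natCast_mem _ k))
    (add_mem (add_mem (mul_mem (ofNat_mem _ 2) hy.mem)
      (mul_mem (sub_mem (one_mem _) D.c_mem_B) hx.mem)) (neg_mem D.b_mem_B)))
    (mul_mem D.s_mem hβ))

variable [Fact T.q.Prime] {π : D.B} (hπ : π ∈ maximalIdeal D.B)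
include hπ

omit [Fact (Nat.Prime T.q)] in
lemma cst_inv {x : Ω} (hx : Cst W0 (D.idealJ π) x) (h : ¬ InMax D.B x) :
    Cst W0 (D.idealJ π) x⁻¹ :=
  hx.inv (idealJ_le hπ) D.W0_le_B D.unit_B h

omit [Fact (Nat.Prime T.q)] in
/-- Chords. -/
lemma CPt.add (hb : Cst W0 (D.idealJ π) b) (hc : Cst W0 (D.idealJ π) c)
    {P Q : (tateCurve b c).toAffine.Point} (hP : D.CPt π P) (hQ : D.CPt π Q)
    (h1 : F.Fin (P - Q)) (h2 : F.Fin (P + Q)) : D.CPt π (P + Q) := by
  obtain ⟨x, y, hn, eP, hx, hy⟩ := hP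
  obtain ⟨x', y', hn', eQ, hx', hy'⟩ := hQ
  have hd : ¬ InMax D.B (x - x') := fun h => by
    rcases F.not_fin_of_congr eP eQ (D.B_le hx.mem) (D.B_le hx'.mem) (D.inMax_B.1 h).2 with e | e
    exacts [e h1, e h2]
  have hne : x ≠ x' := fun h => hd (by rw [h, sub_self]; exact inMax_zero)
  have hl : Cst W0 (D.idealJ π) ((y - y') / (x - x')) := by
    rw [div_eq_mul_inv]; exact (hy.sub hy').mul (cst_inv hπ (hx.sub hx') hd)
  have hone : Cst W0 (D.idealJ π) 1 := cst_of_mem W0.one_mem (one_mem _)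
  have hzero : Cst W0 (D.idealJ π) 0 := cst_of_mem W0.zero_mem (zero_mem _)
  have hX : Cst W0 (D.idealJ π)
      ((tateCurve b c).toAffine.addX x x' ((y - y') / (x - x'))) := by
    simp only [Affine.addX, tateCurve, pow_two]
    exact ((((hl.mul hl).add ((hone.sub hc).mul hl)).sub hb.neg).sub hx).sub hx'
  rw [eP, eQ, Affine.Point.add_of_X_ne hne]
  simp only [Affine.slope_of_X_ne hne]
  refine ⟨_, _, _, rfl, hX, ?_⟩
  simp only [Affine.addY, Affine.negAddY, Affine.negY]
  simp only [tateCurve]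
  exact ((((hl.mul (hX.sub hx)).add hy).neg).sub ((hone.sub hc).mul hX)).sub hb.neg

set_option linter.unusedSectionVars false in
/-- The coefficient identity from division by `q`. -/
lemma cst_coeff_div {w0 : Fin 2 → ZMod T.q}
    (hw : Function.Bijective fun p : ZMod T.q × ZMod T.q => p.1 • w0 + p.2 • D.v0)
    {a : (tateCurve b c).toAffine.Point} (ha : T.n • a = 0) (h2 : 2 • a ≠ 0)
    {xa ya : Ω} {hn : (tateCurve b c).toAffine.Nonsingular xa ya} (ea : a = .some _ _ hn)
    (k : ℕ) :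
    Cst W0 (D.idealJ π) (((tateCurve b c).Φ T.q).coeff k
      - xa * ((tateCurve b c).ΨSq T.q).coeff k) := by
  classical
  have := F.isElliptic
  have h0 : a ≠ 0 := fun h => h2 (by rw [h, nsmul_zero])
  have hxa : xa ∈ D.B := (D.coord_mem_B (x := xa) (y := ya) (h := hn)
    ⟨a, 0, ha, h0, by rw [map_zero, add_zero, ea]⟩).1
  -- division by `q`
  obtain ⟨A, hA, hqA⟩ : ∃ A, T.n • A = 0 ∧ T.q • A = a := by
    obtain ⟨m, hm1, hm0⟩ := Nat.chineseRemainder T.hnq 1 0
    obtain ⟨q', rfl⟩ := Nat.modEq_zero_iff_dvd.1 hm0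
    refine ⟨q' • a, by rw [← mul_nsmul', mul_comm, mul_nsmul', ha, nsmul_zero], ?_⟩
    have hmod : ∀ m : ℕ, m • a = (m % T.n) • a := fun m => by
      conv_lhs => rw [← Nat.div_add_mod m T.n, add_nsmul, mul_nsmul, ha, nsmul_zero, zero_add]
    rw [← mul_nsmul', hmod, hm1, ← hmod, one_nsmul]
  have hA2 : 2 • A ≠ 0 := fun h => h2 (by rw [← hqA, ← mul_nsmul', mul_comm, mul_nsmul', h,
    nsmul_zero])
  have hA0 : A ≠ 0 := fun h => hA2 (by rw [h, nsmul_zero])
  have hmix : ∀ v, A + T.qTors v ∈ T.mixed := fun v => ⟨A, v, hA, hA0, rfl⟩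
  have hfin : ∀ v, ∃ x y : D.B, ∃ h : (tateCurve b c).toAffine.Nonsingular (x : Ω) (y : Ω),
      A + T.qTors v = .some _ _ h := by
    intro v
    obtain ⟨x, y, h, e, -, -⟩ := D.ov.fin_mixed (hmix v)
    obtain ⟨hx, hy⟩ := D.coord_mem_B (h := h) (e ▸ hmix v)
    exact ⟨⟨x, hx⟩, ⟨y, hy⟩, h, e⟩
  choose fx fy fh fe using hfin
  have hinj : Function.Injective fx := by
    intro v v' h
    rcases (Affine.Point.X_eq_iff (h₁ := fh v) (h₂ := fh v')).1 (congrArg Subtype.val h) with e | e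
    · rw [← fe, ← fe, add_right_inj] at e
      exact T.qTors_injective e
    · exfalso
      rw [← fe, ← fe, neg_add] at e
      refine hA2 (TorsFrame.smul_eq_zero_of_coprime T.hnq ?_ ?_)
      · rw [← mul_nsmul', mul_comm, mul_nsmul', hA, nsmul_zero]
      · have : 2 • A = T.qTors (-v' - v) := by
          rw [two_nsmul, map_sub, map_neg,
            show A + A = A + T.qTors v + (A - T.qTors v) by abel, e]
          abel
        rw [this, T.nsmul_qTors]
  let WB : WeierstrassCurve D.B := tateCurve ⟨b, D.b_mem_B⟩ ⟨c, D.c_mem_B⟩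
  have hWB : WB.map D.B.subtype = tateCurve b c := tateCurve_map _ _ _
  set p : D.B[X] := WB.Φ T.q - C (⟨xa, hxa⟩ : D.B) * WB.ΨSq T.q with hp
  have hmap : p.map D.B.subtype = EC.Torsion.fibrePoly (tateCurve b c).toAffine T.q xa := by
    rw [hp, Polynomial.map_sub, Polynomial.map_mul, map_C, ← WeierstrassCurve.map_Φ,
      ← WeierstrassCurve.map_ΨSq, hWB]
    rfl
  obtain ⟨hmon, hdeg⟩ := EC.Torsion.fibrePoly_monic_natDegree (tateCurve b c).toAffine
    T.hq.ne_zero xa
  rw [← hmap] at hmon hdeg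
  have hpm : p.Monic := Polynomial.monic_of_injective Subtype.val_injective hmon
  rw [natDegree_map_eq_of_injective Subtype.val_injective] at hdeg
  have hroot : ∀ v, p.eval (fx v) = 0 := by
    intro v
    apply Subtype.val_injective
    change D.B.subtype (p.eval (fx v)) = 0
    rw [← eval₂_at_apply, ← eval_map, hmap, EC.Torsion.fibrePoly, eval_sub, eval_mul, eval_C,
      sub_eq_zero]
    refine EC.Torsion.eval_Φ_eq_mul_of_nsmul_eq_some (tateCurve b c).toAffine (h := fh v)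
      (h₁ := hn) ?_
    rw [← fe, nsmul_add, hqA, T.nsmul_qTors, add_zero, ea]
  have hprod : p = ∏ v, (X - C (fx v)) := by
    have hm' : (∏ v, (X - C (fx v))).Monic :=
      monic_prod_of_monic _ _ fun v _ => monic_X_sub_C (fx v)
    have hd' : (∏ v, (X - C (fx v))).natDegree = T.q ^ 2 := by
      rw [natDegree_prod_of_monic _ _ fun v _ => monic_X_sub_C (fx v)]; simp
    rw [← sub_eq_zero]
    refine eq_zero_of_natDegree_lt_card_of_eval_eq_zero _ hinj (fun v => ?_) ?_
    · simp [hroot, eval_prod, Finset.prod_eq_zero (Finset.mem_univ v)]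
    · have hcard : Fintype.card (Fin 2 → ZMod T.q) = T.q ^ 2 := by simp
      rw [hcard]
      by_cases h : p - ∏ v, (X - C (fx v)) = 0
      · rw [h, natDegree_zero]; exact pow_pos T.hq.pos 2
      · rw [natDegree_lt_iff_degree_lt h]
        refine (Polynomial.degree_sub_lt_left ?_ hpm.ne_zero ?_).trans_le ?_
        · rw [degree_eq_natDegree hpm.ne_zero, degree_eq_natDegree hm'.ne_zero, hdeg, hd']
        · rw [hpm.leadingCoeff, hm'.leadingCoeff]
        · rw [degree_eq_natDegree hpm.ne_zero, hdeg]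
  -- modulo `J` the roots along the kernel coincide
  set mk := Ideal.Quotient.mk (D.idealJ π)
  have hcong : ∀ (i k : ZMod T.q), mk (fx (i • w0 + k • D.v0)) = mk (fx (i • w0)) := by
    intro i k
    have hm : Affine.Point.some _ _ (fh (i • w0)) ∈ T.mixed := fe (i • w0) ▸ hmix _
    obtain ⟨x', y', h', e, β, hβ, γ, -, ex, -⟩ := D.exists_translate hm k.val
    rw [← fe, add_assoc, ← map_nsmul, ← map_add,
      show k.val • D.v0 = k • D.v0 by
        funext r; simp [nsmul_eq_mul]] at e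
    rw [fe] at e
    have hx := (Affine.Point.some.inj e).1
    rw [Ideal.Quotient.eq]
    convert Ideal.mul_mem_right ((-(k.val : D.B)) * (2 * fy (i • w0)
      + (1 - ⟨c, D.c_mem_B⟩) * fx (i • w0) + -⟨b, D.b_mem_B⟩) + ⟨D.s, D.s_mem⟩ * ⟨β, hβ⟩) _
      (s_mem_idealJ (D := D) (π := π)) using 1
    apply Subtype.ext
    push_cast
    rw [show ((2 : D.B) : Ω) = 2 from map_ofNat D.B.subtype 2, hx, ex]
    ring
  have hmapJ : p.map mk = ∏ i : ZMod T.q, (X - C (mk (fx (i • w0)))) ^ T.q := by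
    rw [hprod, Polynomial.map_prod, ← Fintype.prod_bijective _ hw
      (fun p => Polynomial.map mk (X - C (fx (p.1 • w0 + p.2 • D.v0))))
      (fun v => Polynomial.map mk (X - C (fx v))) (fun _ => rfl), Fintype.prod_prod_type]
    refine Finset.prod_congr rfl fun i _ => ?_
    simp only [Polynomial.map_sub, map_X, map_C, hcong]
    simp
  have hk := cst_coeff_of_map_eq_prod D.W0_le_B q_mem_idealJ le_sup_right D.res_B Finset.univ
    (fun i : ZMod T.q => fx (i • w0)) hmapJ k
  have e : ((p.coeff k : D.B) : Ω) = ((tateCurve b c).Φ T.q).coeff k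
      - xa * ((tateCurve b c).ΨSq T.q).coeff k := by
    change D.B.subtype (p.coeff k) = _
    rw [← coeff_map, hmap, EC.Torsion.fibrePoly, coeff_sub, coeff_C_mul]
  exact e ▸ hk

end KerData

end Fermat.Agent.Carayol
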