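import Fermat.Agent.Carayol.Inertia

/-!
# Units at a prime and their residues
-/

set_option autoImplicit false

noncomputable section

namespace Fermat.Agent.Carayol

open WeierstrassCurve IsLocalRing Matrix

variable {K Ω : Type*} [Field K] [Field Ω] [Algebra K Ω] [DecidableEq Ω]

namespace TateLevel

variable {L : TateLevel K Ω} {U : UnramBase K L.frame.q}
variable (P : Ideal (L.modelRing U)) [P.IsPrime]

/-- Units of the local ring at a prime. -/
def unitsAt : Subgroup Ωˣ where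
  carrier := {z | (z : Ω) ∈ localRing P ∧ ((z⁻¹ : Ωˣ) : Ω) ∈ localRing P}
  mul_mem' {a b} ha hb := ⟨by simpa using mul_mem ha.1 hb.1, by
    rw [_root_.mul_inv_rev, Units.val_mul]; exact mul_mem hb.2 ha.2⟩
  one_mem' := ⟨by simp, by simp⟩
  inv_mem' {a} ha := ⟨ha.2, by simpa using ha.1⟩

lemma mem_unitsAt {z : Ωˣ} :
    z ∈ unitsAt P ↔ (z : Ω) ∈ localRing P ∧ ((z⁻¹ : Ωˣ) : Ω) ∈ localRing P := Iff.rfl

/-- The residue of a unit. -/
def resHom : unitsAt P →* (ResidueField (localRing P))ˣ :=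
  (Units.map (residue (localRing P)).toMonoidHom).comp
    { toFun := fun z =>
        ⟨⟨((z : Ωˣ) : Ω), z.2.1⟩, ⟨(((z : Ωˣ)⁻¹ : Ωˣ) : Ω), z.2.2⟩,
          Subtype.ext (Units.mul_inv _), Subtype.ext (Units.inv_mul _)⟩
      map_one' := Units.ext (Subtype.ext rfl)
      map_mul' := fun _ _ => Units.ext (Subtype.ext rfl) }

lemma resHom_eq_iff (z z' : unitsAt P) :
    resHom P z = resHom P z' ↔ InMax (localRing P) (((z : Ωˣ) : Ω) - ((z' : Ωˣ) : Ω)) := by
  rw [Units.ext_iff]
  show residue _ (⟨_, z.2.1⟩ : localRing P) = residue _ (⟨_, z'.2.1⟩ : localRing P) ↔ _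
  rw [← sub_eq_zero, ← map_sub, residue_eq_zero_iff]
  exact inMax_coe.symm

/-- Inertia acts trivially on residues. -/
lemma IsInertia.inMax_sub {s : GL (Fin 2) (ZMod L.frame.q)} (hs : IsInertia P s) {z : Ω}
    (hz : z ∈ localRing P) : L.act s z ∈ localRing P ∧ InMax (localRing P) (L.act s z - z) := by
  obtain ⟨a, d, hd, e⟩ := (mem_localRing P).1 hz
  have hsd : L.actR U s d ∉ P := fun h => hd (by simpa using P.sub_mem h (hs d))
  have hsd0 : ¬ InMax (localRing P) (L.act s d : Ω) := fun h =>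
    hsd ((inMax_localRing P (a := L.actR U s d)).1 h)
  obtain ⟨h0, hi, -⟩ := inv_mem_of_not_inMax (le_localRing P (L.actR U s d).2) hsd0
  rw [coe_actR] at h0 hi
  have e' : L.act s z = L.act s a * (L.act s d : Ω)⁻¹ := by
    rw [← e, map_mul, mul_assoc, mul_inv_cancel₀ h0, mul_one]
  refine ⟨e' ▸ mul_mem (le_localRing P (L.actR U s a).2) hi, ?_⟩
  have h1 : InMax (localRing P) (((L.actR U s a - a : L.modelRing U)) : Ω) :=
    (inMax_localRing P).2 (hs a)
  have h2 : InMax (localRing P) (((L.actR U s d - d : L.modelRing U)) : Ω) :=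
    (inMax_localRing P).2 (hs d)
  have := (h1.sub (h2.mul_left hz)).mul_right hi
  convert this using 1
  rw [e']
  push_cast [coe_actR]
  rw [mul_sub, e]
  field_simp
  ring

lemma transl_mem_unitsAt {z : Ωˣ} {g : GL (Fin 2) (ZMod L.frame.q)}
    (hz : z ∈ unitsAt (pull P g)) : L.transl z g ∈ unitsAt P := by
  have key : ∀ y : Ω, y ∈ localRing (pull P g) → L.act g y ∈ localRing P := fun y hy => by
    obtain ⟨a, d, hd, e⟩ := (mem_localRing _).1 hy
    exact (mem_localRing P).2 ⟨L.actR U g a, L.actR U g d, fun h => hd h, by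
      rw [coe_actR, coe_actR, ← map_mul, e]⟩
  refine ⟨key _ hz.1, ?_⟩
  rw [show ((L.transl z g)⁻¹ : Ωˣ) = L.transl z⁻¹ g from
    (map_inv (Units.map (L.act g).toRingEquiv.toRingHom.toMonoidHom) z).symm]
  exact key _ hz.2

/-- **The identity.** -/
theorem inMax_pow_div_lam {Ω : Type} [Field Ω] [Algebra K Ω] [DecidableEq Ω] {L : TateLevel K Ω}
    {U : UnramBase K L.frame.q} (P : Ideal (L.modelRing U)) [P.IsPrime] (D : CombId L.frame.q)
    (hq : (L.frame.q : L.modelRing U) ∈ P)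
    (ν : GL (Fin 2) (ZMod L.frame.q) → Ωˣ) (hν : ∀ g, ν g ∈ unitsAt P)
    (hT : ∀ g, ∀ t ∈ D.fix, ν (g * t) = ν g)
    (hS : ∀ s g, IsInertia P s → ν (s * g) = L.transl (ν g) s) :
    L.lam D ν ∈ unitsAt P ∧
      InMax (localRing P) (((ν 1 ^ D.exp * (L.lam D ν)⁻¹ : Ωˣ) : Ω) - 1) := by
  obtain ⟨v, hv, hline⟩ := exists_line_inertia P hq
  set νu : GL (Fin 2) (ZMod L.frame.q) → Additive (unitsAt P) :=
    fun g => Additive.ofMul ⟨ν g, hν g⟩
  set Λ : unitsAt P := Additive.toMul (∑ g, D.coeffs g • νu g) with hΛ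
  have hlam : L.lam D ν = (Λ : Ωˣ) := by
    have := map_sum (unitsAt P).subtype.toAdditive (fun g => D.coeffs g • νu g) Finset.univ
    refine (congrArg Additive.toMul (this.trans ?_)).symm
    exact Finset.sum_congr rfl fun g _ => map_zsmul (unitsAt P).subtype.toAdditive _ _
  have hid := D.hid _ (fun g => (resHom P).toAdditive (νu g))
    (fun g t ht => congrArg _ (congrArg Additive.ofMul (Subtype.ext (hT g t ht)))) v hv
    (fun s g hs => by
      refine congrArg Additive.ofMul ((resHom_eq_iff P _ _).2 ?_)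
      show InMax (localRing P) (((ν (s * g) : Ωˣ) : Ω) - ((ν g : Ωˣ) : Ω))
      rw [hS s g (hline s hs), coe_transl]
      exact ((hline s hs).inMax_sub P (hν g).1).2)
  simp only [← map_zsmul] at hid
  rw [← map_sum, natCast_zsmul] at hid
  refine ⟨hlam ▸ Λ.2, ?_⟩
  set u : unitsAt P := ⟨ν 1, hν 1⟩ ^ D.exp * Λ⁻¹
    with hu
  have h1 : resHom P u = resHom P 1 := by
    rw [hu, map_mul, map_inv, map_one, mul_inv_eq_one]
    exact congrArg Additive.toMul hid.symm
  have := (resHom_eq_iff P _ _).1 h1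
  simpa [hu, hlam] using this

end TateLevel

end Fermat.Agent.Carayol
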