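import Fermat.Agent.Carayol.LocRing
import Fermat.Agent.Carayol.Kernel
import Fermat.Agent.Carayol.Datum
import Fermat.Agent.EC.Torsion.Count
import Mathlib.RingTheory.IntegralClosure.IsIntegral.Basic

/-!
# The finitely generated subring attached to a kernel point
-/

set_option autoImplicit false

namespace Fermat.Agent.Carayol

open WeierstrassCurve IsLocalRing

variable {Ω : Type*} [Field Ω] [DecidableEq Ω] {b c : Ω}

/-- Hypotheses on a closed point of the special fibre. -/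
structure Over (T : TorsFrame b c) (F : GoodFibre b c) (W0 : Subring Ω) (j : Ω) : Prop where
  isOver : T.IsOver F
  le : W0 ≤ F.O
  noeth : IsNoetherianRing W0
  res : ∀ a ∈ F.O, ∃ w ∈ W0, InMax F.O (a - w)
  unit : ∀ w ∈ W0, ¬ InMax F.O w → w⁻¹ ∈ W0
  max : ∀ w ∈ W0, InMax F.O w → ∃ w' ∈ W0, w = (T.q : Ω) * w'
  j_eq : (tateCurve b c).c₄ ^ 3 = j * (tateCurve b c).Δ
  units : ¬ InMax F.O b ∧ ¬ InMax F.O c ∧ ¬ InMax F.O (b - c)
  vert : ∃ (𝔭 : Ideal F.O) (y : F.O), 𝔭.IsPrime ∧ (∀ h, (⟨(T.q : Ω), h⟩ : F.O) ∈ 𝔭) ∧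
    y ∈ maximalIdeal F.O ∧ y ∉ 𝔭 ∧ (y : Ω) ∈ Subring.closure ((W0 : Set Ω) ∪ {j})
  int : ∀ a ∈ F.O, ∃ x y, IsIntegral (Subring.closure ((W0 : Set Ω) ∪ {j})) x ∧
    IsIntegral (Subring.closure ((W0 : Set Ω) ∪ {j})) y ∧ y ∈ F.O ∧ ¬ InMax F.O y ∧ a * y = x
  gen : ∀ S : Subfield Ω, (W0 : Set Ω) ⊆ S → j ∈ S →
    (∀ P : (tateCurve b c).toAffine.Point, T.n • P = 0 ∨ P ∈ Set.range T.qTors →
      coordSet P ⊆ S) → S = ⊤

/-- The parameter `x / y` of a point. -/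
def sPar : (tateCurve b c).toAffine.Point → Ω
  | .zero => 0
  | .some x y _ => x / y

omit [DecidableEq Ω] in
lemma sPar_some {x y : Ω} (h : (tateCurve b c).toAffine.Nonsingular x y) :
    sPar (Affine.Point.some x y h) = x / y := rfl

/-- The parameter `1 / y` of a point. -/
def tPar : (tateCurve b c).toAffine.Point → Ω
  | .zero => 0
  | .some _ y _ => 1 / y

omit [DecidableEq Ω] in
lemma tPar_some {x y : Ω} (h : (tateCurve b c).toAffine.Nonsingular x y) :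
    tPar (Affine.Point.some x y h) = 1 / y := rfl

namespace TorsFrame

variable (T : TorsFrame b c)

/-- The marked point. -/
def R : (tateCurve b c).toAffine.Point := tatePt T.hb

/-- Sums of a point of order dividing `n`, nonzero, and a `q`-torsion point. -/
def mixed : Set (tateCurve b c).toAffine.Point :=
  {P | ∃ a v, T.n • a = 0 ∧ a ≠ 0 ∧ P = a + T.qTors v}

/-- The generators. -/
def gens (v0 : Fin 2 → ZMod T.q) : Set Ω :=
  {b, c, (tateCurve b c).Δ⁻¹, sPar (T.qTors v0), tPar (T.qTors v0)} ∪ ⋃ P ∈ T.mixed, coordSet P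

/-- The finitely generated ring. -/
def genRing (W0 : Subring Ω) (v0 : Fin 2 → ZMod T.q) : Subring Ω :=
  Subring.closure ((W0 : Set Ω) ∪ T.gens v0)

lemma smul_R (k : ℕ) (h : k ∈ ({1, 2, 3, 4, 5, 6, 8} : Finset ℕ)) : k • T.R ≠ 0 := T.smulR k h

lemma smul_eq_zero_of_coprime {M : Type*} [AddMonoid M] {m k : ℕ} (h : m.Coprime k) {P : M}
    (h1 : m • P = 0) (h2 : k • P = 0) : P = 0 := by
  rw [← addOrderOf_dvd_iff_nsmul_eq_zero] at h1 h2
  exact AddMonoid.addOrderOf_eq_one_iff.1 (Nat.eq_one_of_dvd_coprimes h h1 h2)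

lemma q_nsmul_ne_zero {a : (tateCurve b c).toAffine.Point} (ha : T.n • a = 0) (h0 : a ≠ 0) :
    T.q • a ≠ 0 := fun h => h0 (smul_eq_zero_of_coprime T.hnq ha h)

end TorsFrame

variable {T : TorsFrame b c} {F : GoodFibre b c} {W0 : Subring Ω} {j : Ω}

namespace Over

variable (S : Over T F W0 j)
include S

lemma natCast_n_ne_zero : (T.n : Ω) ≠ 0 := by
  obtain ⟨u, hu⟩ := S.isOver.2
  intro h
  refine u.ne_zero ?_
  rw [hu]
  exact Subtype.ext ((map_natCast F.O.subtype T.n).trans h)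

omit [DecidableEq Ω] in
omit S in
lemma Δ_eq : (tateCurve b c).Δ = ((F.W.Δ : F.O) : Ω) := by
  rw [← F.map_W, WeierstrassCurve.map_Δ]; rfl

omit [DecidableEq Ω] in
omit S in
lemma not_inMax_Δ : ¬ InMax F.O (tateCurve b c).Δ := by
  rw [Δ_eq, inMax_coe]
  exact fun h => h F.isUnit_Δ

lemma fin_mixed {P : (tateCurve b c).toAffine.Point} (hP : P ∈ T.mixed) : F.Fin P := by
  obtain ⟨a, v, ha, h0, rfl⟩ := hP
  have e : T.q • (a + T.qTors v) = T.q • a := by rw [nsmul_add, T.nsmul_qTors, add_zero]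
  refine F.fin_of_nsmul S.isOver.2 T.hq.ne_zero ?_ (e ▸ T.q_nsmul_ne_zero ha h0)
  rw [e, ← mul_nsmul', mul_comm, mul_nsmul', ha, nsmul_zero]

lemma coordSet_mixed {P : (tateCurve b c).toAffine.Point} (hP : P ∈ T.mixed) :
    coordSet P ⊆ F.O := by
  obtain ⟨x, y, h, rfl, hx, hy⟩ := S.fin_mixed hP
  rintro _ (rfl | rfl) <;> assumption

lemma gens_subset {v0 : Fin 2 → ZMod T.q} (hv : F.Inf (T.qTors v0)) :
    T.gens v0 ⊆ (F.O : Set Ω) := by
  rintro x ((rfl | rfl | rfl | rfl | rfl) | hx)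
  · exact F.b_mem
  · exact F.c_mem
  · exact (inv_mem_of_not_inMax (Δ_eq (F := F) ▸ F.W.Δ.2) not_inMax_Δ).2.1
  · obtain ⟨x, y, h, e, -, -, hs, -⟩ := hv
    rw [e, sPar_some]; exact hs.1
  · obtain ⟨x, y, h, e, -, -, -, ht⟩ := hv
    rw [e, tPar_some]; exact ht.1
  · simp only [Set.mem_iUnion] at hx
    obtain ⟨P, hP, hx⟩ := hx
    exact S.coordSet_mixed hP hx

lemma genRing_le {v0 : Fin 2 → ZMod T.q} (hv : F.Inf (T.qTors v0)) : T.genRing W0 v0 ≤ F.O :=
  Subring.closure_le.2 (Set.union_subset S.le (S.gens_subset hv))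

lemma finite_gens (v0 : Fin 2 → ZMod T.q) : (T.gens v0).Finite := by
  have : NeZero T.q := ⟨T.hq.ne_zero⟩
  have := F.isElliptic
  refine Set.Finite.union (Set.toFinite _) (Set.Finite.biUnion ?_ fun P _ => ?_)
  · refine (((EC.Torsion.finite_setOf_nsmul_eq_zero (tateCurve b c).toAffine
      S.natCast_n_ne_zero).prod (Set.finite_univ (α := Fin 2 → ZMod T.q))).image
      fun p => p.1 + T.qTors p.2).subset ?_
    rintro P ⟨a, v, ha, -, rfl⟩
    exact ⟨(a, v), ⟨ha, trivial⟩, rfl⟩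
  · rcases P with _ | ⟨x, y, h⟩
    · exact Set.finite_empty
    · exact (Set.finite_singleton y).insert x

lemma isNoetherianRing_genRing (v0 : Fin 2 → ZMod T.q) :
    IsNoetherianRing (T.genRing W0 v0) :=
  haveI := S.noeth
  isNoetherianRing_closure_union W0 (S.finite_gens v0)

omit S in
lemma nsmul_R_mem {k : ℕ} (h : k ∈ ({1, 2, 3, 4, 5, 6, 8} : Finset ℕ)) (v : Fin 2 → ZMod T.q) :
    k • T.R + T.qTors v ∈ T.mixed :=
  ⟨k • T.R, v, by rw [← mul_nsmul', mul_comm, mul_nsmul',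
    show T.n • T.R = 0 from T.nR, nsmul_zero], T.smul_R k h, rfl⟩

omit S in
lemma mem_genRing_of_coord (v0 : Fin 2 → ZMod T.q) {P : (tateCurve b c).toAffine.Point}
    (hP : P ∈ T.mixed) : coordSet P ⊆ (T.genRing W0 v0 : Set Ω) := fun _x hx =>
  Subring.subset_closure (Or.inr (Or.inr (Set.mem_biUnion hP hx)))

end Over

end Fermat.Agent.Carayol
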